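/-
T1G-AN (C) AN-DICT (helper3), part 6: a primitive element of the field of modular functions
`TgxField G` over `𝕜(j)` inside the ring `tgxRing G` (`tgx_exists_primitive`), and the inclusion of
`tgxRing G` (over `ℂ`) into helper4's ring `tddW h` of holomorphic functions with a `q_h`-Laurent
expansion at every cusp.
-/
import Mathlib
import Fermat.Agent.Lib.T1G.GMod.PointOrd
import Fermat.Agent.Lib.T1.Dict.AutoRoot

set_option autoImplicit false
set_option linter.unusedSectionVars false
set_option linter.style.haveILetI false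
set_option linter.unusedVariables false

namespace Fermat.Agent.T1G

open Fermat.Agent.S24Lib Fermat.Agent.T1
open UpperHalfPlane Matrix MatrixGroups CongruenceSubgroup
open scoped Manifold
open Fermat.Agent.ES (IsQLaurentable qLaurent)
attribute [local instance] KMod.charZero_k

section Prim

variable {𝕜 : Type} [Field 𝕜] [IsAlgClosed 𝕜] [Algebra 𝕜 ℂ] {h : ℕ} [NeZero h]
  (G : TgxGens 𝕜 h)

/-- **a primitive element in the ring**: there is an element of `tgxRing G` whose stabiliser in
`SL(2, ℤ)` acts trivially on the whole field `TgxField G` -/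
theorem tgx_exists_primitive :
    ∃ p : tgxRing G, ∀ σ : SL(2, ℤ), tgxAct G σ p = p → tgxRep G σ = 1 := by
  haveI : FiniteDimensional (IntermediateField.adjoin 𝕜 {tgxJL G}) (TgxField G) :=
    tgx_finiteDimensional_adjoin_jL G
  haveI : CharZero (IntermediateField.adjoin 𝕜 {tgxJL G}) :=
    charZero_of_injective_algebraMap (algebraMap 𝕜 _).injective
  obtain ⟨α, hα⟩ := Field.exists_primitive_element (IntermediateField.adjoin 𝕜 {tgxJL G})
    (TgxField G)
  have htop : IntermediateField.adjoin 𝕜 ({tgxJL G} ∪ {α} : Set (TgxField G)) = ⊤ := by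
    have h1 := IntermediateField.adjoin_adjoin_left 𝕜 ({tgxJL G} : Set (TgxField G)) {α}
    rw [← h1, hα, IntermediateField.restrictScalars_top]
  obtain ⟨p, q, hq0, hqinv, hpq⟩ := tdd_exists_invariant_denominator (L := TgxField G)
    (tgxAct G) (tgx_finite_range_act G) α
  refine ⟨p, fun σ hσ => ?_⟩
  have h1 : tgxRep G σ α = α := by
    rw [hpq, map_div₀, tgxRep_algebraMap, tgxRep_algebraMap, hσ, hqinv]
  have h2 : tgxRep G σ (tgxJL G) = tgxJL G := tgxRep_jL G σ
  have key : ∀ x ∈ IntermediateField.adjoin 𝕜 ({tgxJL G} ∪ {α} : Set (TgxField G)),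
      tgxRep G σ x = x := by
    intro x hx
    induction hx using IntermediateField.adjoin_induction with
    | mem x hx =>
      rcases hx with hx | hx
      · rw [Set.mem_singleton_iff.mp hx]; exact h2
      · rw [Set.mem_singleton_iff.mp hx]; exact h1
    | algebraMap c => exact AlgEquiv.commutes _ c
    | add x y _ _ hx hy => rw [map_add, hx, hy]
    | inv x _ hx => rw [map_inv₀, hx]
    | mul x y _ _ hx hy => rw [map_mul, hx, hy]
  ext x
  rw [AlgEquiv.one_apply]
  exact key x (by rw [htop]; trivial)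

/-- elements acting trivially on the field act trivially on the ring -/
theorem tgxAct_apply_of_rep_eq_one {σ : SL(2, ℤ)} (hσ : tgxRep G σ = 1) (r : tgxRing G) :
    tgxAct G σ r = r := by
  apply IsFractionRing.injective (tgxRing G) (TgxField G)
  rw [← tgxRep_algebraMap, hσ, AlgEquiv.one_apply]

instance tgx_finiteIndex_ker_rep : (tgxRep G).ker.FiniteIndex :=
  Subgroup.finiteIndex_of_le (H := Gamma h) (fun γ hγ => by
    rw [MonoidHom.mem_ker]
    exact tgxRep_eq_one_of_mem_Gamma G hγ)

end Prim

section Complex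

variable {h : ℕ} [NeZero h] (G : TgxGens ℂ h)

theorem tgxRing_le_tddW : tgxRing G ≤ tddW h := by
  intro g hg σ
  have h1 : KMod.slAct ℂ σ⁻¹ g ∈ tgxRing G := tgx_slAct_mem_ring G σ⁻¹ hg
  have h2 := (tgxRing_props G h1).1
  have h3 : KMod.slAct ℂ σ⁻¹ g = fun τ => g (σ • τ) := by
    funext τ
    rw [KMod.slAct_apply, inv_inv]
  rwa [h3] at h2

/-- an element of `tgxRing G` as an element of `tddW h` -/
noncomputable def tgdOfRing : tgxRing G →ₐ[ℂ] tddW h :=
  Subalgebra.inclusion (tgxRing_le_tddW G)

theorem coe_tgdOfRing (r : tgxRing G) : ((tgdOfRing G r : tddW h) : ℍ → ℂ) = (r : ℍ → ℂ) := rfl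

theorem tgdOfRing_injective : Function.Injective (tgdOfRing G) :=
  Subalgebra.inclusion_injective _

theorem tddWAct_tgdOfRing (σ : SL(2, ℤ)) (r : tgxRing G) :
    tddWAct h σ (tgdOfRing G r) = tgdOfRing G (tgxAct G σ r) := rfl

theorem tddWToMer_tgdOfRing (r : tgxRing G) :
    tddWToMer h (tgdOfRing G r) = tgxToMer G (algebraMap (tgxRing G) (TgxField G) r) := by
  rw [tgxToMer_algebraMap]
  rfl

/-- the image of the field of modular functions in the field of meromorphic functions -/
noncomputable def tgdAnL : Subfield tdmMer := (tgxToMer G).fieldRange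

theorem mem_tgdAnL {x : tdmMer} : x ∈ tgdAnL G ↔ ∃ y : TgxField G, tgxToMer G y = x :=
  RingHom.mem_fieldRange

/-- polynomials in `j` lie in the image of `TgxField G` -/
theorem tgd_tddWToMer_mem_of_eq_poly (f : tddW h) (P : Polynomial ℂ)
    (hP : ∀ τ, (f : ℍ → ℂ) τ = P.eval (jFun τ)) : tddWToMer h f ∈ tgdAnL G := by
  have h1 : f = tgdOfRing G (Polynomial.aeval (tgxJR G) P) := by
    apply Subtype.ext
    funext τ
    rw [hP τ]
    have := tgx_aeval_jR_apply G P τ
    rw [Algebra.algebraMap_self, Polynomial.map_id] at this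
    exact this.symm
  rw [h1, tddWToMer_tgdOfRing, mem_tgdAnL]
  exact ⟨_, rfl⟩

theorem tgd_tddWToMer_mem_of_invariant (f : tddW h) (hf : ∀ γ, tddWAct h γ f = f) :
    tddWToMer h f ∈ tgdAnL G := by
  obtain ⟨P, hP⟩ := tddWAct_invariant h f hf
  exact tgd_tddWToMer_mem_of_eq_poly G f P hP

end Complex

end Fermat.Agent.T1G
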