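/-
T1G-AN (C) AN-DICT (helper3), part 1: the analytic model of the function field
`laurentBaseChange 𝕜 F₀` of `Γ \ ℍ*` as the fixed field of `Γ` in a field of modular functions
`TgxField G` of level `h` (`TgdModel`), the places of the function field below the places of
`TgxField G`, and the ramification index as the order of a stabiliser.
Generic version (in `Γ`) of `Lib/T1/Dict/{CuspDvd,PointOrd,StabCount}.lean`.
-/
import Mathlib
import Fermat.Agent.Lib.T1G.GMod.PointOrd
import Fermat.Agent.Lib.T1G.GMod.Cusp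
import Fermat.Agent.Lib.T1G.GMod.Qk
import Fermat.Agent.Lib.T1G.Mono.Monodromy

set_option autoImplicit false
set_option linter.unusedSectionVars false
set_option linter.style.haveILetI false
set_option linter.unusedVariables false

namespace Fermat.Agent.T1G

open Fermat.Agent.S24Lib Fermat.Agent.T1 ModularCurve
open UpperHalfPlane Matrix MatrixGroups CongruenceSubgroup WithZero ModularGroup
open AlgebraicCurve Fermat.Agent.Curve Fermat.Agent.Curve.GaloisAux Fermat.Agent.Curve.PlaceAux
attribute [local instance] KMod.charZero_k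

/-- a subfield `F` of `L` containing `x` is finite over `K(x)` if `L` is -/
theorem tgd_finiteDimensional_adjoin_of_mem {K L : Type*} [Field K] [Field L] [Algebra K L]
    (F : IntermediateField K L) (x : F)
    (hfin : FiniteDimensional (IntermediateField.adjoin K {(x : L)}) L) :
    FiniteDimensional (IntermediateField.adjoin K {x}) F := by
  have hle : IntermediateField.adjoin K {(x : L)} ≤ F := by
    rw [IntermediateField.adjoin_le_iff, Set.singleton_subset_iff]
    exact x.2
  have hcomap : IntermediateField.adjoin K {x}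
      = (IntermediateField.adjoin K {(x : L)}).comap F.val := by
    have h1 : (IntermediateField.adjoin K {x}).map F.val
        = IntermediateField.adjoin K {(x : L)} := by
      rw [IntermediateField.adjoin_map, Set.image_singleton]
      rfl
    rw [← h1, IntermediateField.comap_map]
  have h2 := IntermediateField.relfinrank_mul_finrank_top hle
  have hpos : 0 < Module.finrank (IntermediateField.adjoin K {(x : L)}) L := Module.finrank_pos
  apply FiniteDimensional.of_finrank_pos
  rw [hcomap, IntermediateField.finrank_comap, IntermediateField.fieldRange_val]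
  rcases Nat.eq_zero_or_pos ((IntermediateField.adjoin K {(x : L)}).relfinrank F) with h0 | h0
  · rw [h0, zero_mul] at h2
    omega
  · exact h0

/-- **the analytic model** of the function field `laurentBaseChange 𝕜 F₀` of `Γ \ ℍ*`: it is the
fixed field of `Γ` in the field of modular functions generated by a generating system `G` of
level `h`, compatibly with the `q`-expansions -/
structure TgdModel (𝕜 : Type) [Field 𝕜] [IsAlgClosed 𝕜] [Algebra 𝕜 ℂ] [Algebra ℚ 𝕜]
    (Γ : Subgroup SL(2, ℤ)) (h : ℕ) [NeZero h] (F₀ : IntermediateField ℚ (LaurentSeries ℚ)) where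
  /-- the generating system of the ambient field of modular functions of level `h` -/
  G : TgxGens 𝕜 h
  /-- the standing hypotheses on the group -/
  grp : TgnGroup Γ h
  /-- the kernel of the action on the ambient field is contained in `± Γ` -/
  ker_le : ∀ γ : SL(2, ℤ), tgxRep G γ = 1 → γ ∈ Γ ∨ -γ ∈ Γ
  /-- the function field is the fixed field of `Γ` -/
  iso : ↥(laurentBaseChange 𝕜 F₀) ≃ₐ[𝕜] ↥(IntermediateField.fixedField (Γ.map (tgxRep G)))
  /-- compatibly with the `q`-expansions -/
  iso_ql : ∀ y : ↥(laurentBaseChange 𝕜 F₀),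
    tgxFieldQL G ((iso y : ↥(IntermediateField.fixedField (Γ.map (tgxRep G)))) : TgxField G)
      = qExpand ℂ h (coeffMap (algebraMap 𝕜 ℂ) (y : LaurentSeries 𝕜))

variable {𝕜 : Type} [Field 𝕜] [IsAlgClosed 𝕜] [Algebra 𝕜 ℂ] [Algebra ℚ 𝕜]
  {Γ : Subgroup SL(2, ℤ)} {h : ℕ} [NeZero h] {F₀ : IntermediateField ℚ (LaurentSeries ℚ)}
  (M : TgdModel 𝕜 Γ h F₀)

namespace TgdModel

/-- the fixed field of `Γ` in the ambient field -/
noncomputable abbrev fixF : IntermediateField 𝕜 (TgxField M.G) :=
  IntermediateField.fixedField (Γ.map (tgxRep M.G))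

instance finite_map : Finite (Γ.map (tgxRep M.G)) := tgx_finite_map_rep M.G Γ

instance finiteDimensional_fixF : FiniteDimensional M.fixF (TgxField M.G) :=
  finiteDimensional_fixedField _

/-- the element of the analytic model attached to a function of the function field -/
noncomputable def toF (y : ↥(laurentBaseChange 𝕜 F₀)) : TgxField M.G :=
  ((M.iso y : M.fixF) : TgxField M.G)

theorem toF_ne_zero {y : ↥(laurentBaseChange 𝕜 F₀)} (hy : y ≠ 0) : M.toF y ≠ 0 := by
  intro h0
  apply hy
  have h1 : (M.iso y : M.fixF) = 0 := Subtype.ext h0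
  exact M.iso.injective (h1.trans (map_zero _).symm)

theorem toF_fixed (y : ↥(laurentBaseChange 𝕜 F₀)) {γ : SL(2, ℤ)} (hγ : γ ∈ Γ) :
    tgxRep M.G γ (M.toF y) = M.toF y :=
  (M.iso y).2 ⟨tgxRep M.G γ, γ, hγ, rfl⟩

theorem toF_zpow (y : ↥(laurentBaseChange 𝕜 F₀)) (k : ℤ) : M.toF (y ^ k) = M.toF y ^ k := by
  unfold toF
  rw [map_zpow₀]
  rfl

/-- the ring homomorphism underlying `toF` -/
noncomputable def toFHom : ↥(laurentBaseChange 𝕜 F₀) →+* TgxField M.G :=
  (M.fixF.val : M.fixF →+* TgxField M.G).comp (M.iso : ↥(laurentBaseChange 𝕜 F₀) →+* M.fixF)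

theorem toFHom_apply (y : ↥(laurentBaseChange 𝕜 F₀)) : M.toFHom y = M.toF y := rfl

/-- the place of the function field below a place of the ambient field -/
noncomputable def barPlace (v : Place 𝕜 (TgxField M.G)) :
    Place 𝕜 ↥(laurentBaseChange 𝕜 F₀) :=
  placeMap M.iso.symm (restrict (F := M.fixF) v)

theorem barPlace_ord (v : Place 𝕜 (TgxField M.G)) (y : ↥(laurentBaseChange 𝕜 F₀)) :
    (M.barPlace v).ord y = (restrict (F := M.fixF) v).ord (M.iso y) := by
  rw [barPlace, placeMap_ord', AlgEquiv.symm_symm]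

/-- the order at a place of the ambient field of an element of the function field is a multiple
of its order at the place below -/
theorem exists_ord_barPlace (v : Place 𝕜 (TgxField M.G)) :
    ∃ e : ℕ, 0 < e ∧ ∀ y : ↥(laurentBaseChange 𝕜 F₀),
      v.ord (M.toF y) = (e : ℤ) * (M.barPlace v).ord y := by
  obtain ⟨e, he, h1⟩ := tdd_exists_ord_restrict (F := M.fixF) v
  refine ⟨e, he, fun y => ?_⟩
  rw [barPlace_ord, ← h1]
  rfl

/-- every place of the function field lies below a place of the ambient field -/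
theorem exists_barPlace_eq (P : Place 𝕜 ↥(laurentBaseChange 𝕜 F₀)) :
    ∃ v : Place 𝕜 (TgxField M.G), M.barPlace v = P := by
  obtain ⟨v, hv⟩ := exists_restrict_fixedField_eq (Γ.map (tgxRep M.G)) (placeMap M.iso P)
  refine ⟨v, ?_⟩
  rw [barPlace, hv, placeMap_symm_placeMap]

/-- `j` as an element of the fixed field of `Γ` -/
noncomputable def jG : M.fixF :=
  ⟨tgxJL M.G, fun g => by
    obtain ⟨γ, -, hγ⟩ := g.2
    show (g : TgxField M.G ≃ₐ[𝕜] TgxField M.G) (tgxJL M.G) = tgxJL M.G
    rw [← hγ]
    exact tgxRep_jL M.G γ⟩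

theorem coe_jG : ((M.jG : M.fixF) : TgxField M.G) = tgxJL M.G := rfl

theorem isFunctionFieldGen_jG : IsFunctionFieldGen 𝕜 M.fixF M.jG := by
  refine ⟨?_, ?_⟩
  · intro halg
    apply tgx_transcendental_jL M.G
    exact halg.algHom M.fixF.val
  · exact tgd_finiteDimensional_adjoin_of_mem M.fixF M.jG (tgx_finiteDimensional_adjoin_jL M.G)

/-- the order at a place of the ambient field of an element of the function field is
`#Stab_Γ` times the order at the place below -/
theorem ord_eq_card_mul_barPlace (v : Place 𝕜 (TgxField M.G)) (y : ↥(laurentBaseChange 𝕜 F₀)) :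
    v.ord (M.toF y)
      = (Nat.card {g : (Γ.map (tgxRep M.G)) //
          (g : TgxField M.G ≃ₐ[𝕜] TgxField M.G) • v = v} : ℤ) * (M.barPlace v).ord y := by
  have h1 := tdd_ord_eq_card_stabilizer_mul (Γ.map (tgxRep M.G)) M.jG
    M.isFunctionFieldGen_jG (by rw [coe_jG]; exact tgx_isFunctionFieldGen_jL M.G) v (M.iso y)
  rw [barPlace_ord, ← h1]
  rfl

/-- the analytic order at `τ₀` of the elements of the function field is a positive multiple of the
order at the place below `tgxPointPlace τ₀` -/
theorem exists_tdmOrd_eq_mul_barPlace (τ₀ : ℍ) (a : 𝕜) (ha : (algebraMap 𝕜 ℂ) a = jFun τ₀) :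
    ∃ E : ℕ, 0 < E ∧ ∀ y : ↥(laurentBaseChange 𝕜 F₀),
      tdmOrd τ₀ (tgxToMer M.G (M.toF y))
        = (E : ℤ) * (M.barPlace (tgxPointPlace M.G τ₀ a ha)).ord y := by
  obtain ⟨M', hM', h1⟩ := tgx_exists_tdmOrd_eq_mul_pointPlace M.G τ₀ a ha
  obtain ⟨e, he, h2⟩ := M.exists_ord_barPlace (tgxPointPlace M.G τ₀ a ha)
  refine ⟨M' * e, Nat.mul_pos hM' he, fun y => ?_⟩
  rw [h1, h2]
  push_cast
  ring

/-- elements of `SL(2, ℤ)` acting like an element of `Γ` are in `± Γ` -/
theorem mem_or_neg_mem_of_rep_mem {δ : SL(2, ℤ)}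
    (hδ : tgxRep M.G δ ∈ Γ.map (tgxRep M.G)) : δ ∈ Γ ∨ -δ ∈ Γ := by
  obtain ⟨γ', hγ', hγδ⟩ := hδ
  have hker : tgxRep M.G (γ'⁻¹ * δ) = 1 := by
    rw [map_mul, map_inv, hγδ, inv_mul_cancel]
  have h2 : δ = γ' * (γ'⁻¹ * δ) := by group
  rcases M.ker_le _ hker with h1 | h1
  · left
    rw [h2]
    exact mul_mem hγ' h1
  · right
    have h3 : -δ = γ' * -(γ'⁻¹ * δ) := by
      rw [mul_neg, ← h2]
    rw [h3]
    exact mul_mem hγ' h1

end TgdModel

end Fermat.Agent.T1G
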