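/-
T1G-AN (C) AN-DICT (helper3), part 3: the dictionary, direction "places ⇒ points and cusps":
if all place orders of `y` in the function field of `Γ \ ℍ*` are divisible by `m`, then at every
point of `ℍ` and at every cusp the analytic order of `y` is `m` times the order of a `Γ`-invariant
function.  Generic version (in `Γ`) of `Lib/T1/Dict/DictFwd.lean`.
-/
import Mathlib
import Fermat.Agent.Lib.T1G.Dict.Model

set_option autoImplicit false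
set_option linter.unusedSectionVars false
set_option linter.style.haveILetI false
set_option linter.unusedVariables false

namespace Fermat.Agent.T1G

open Fermat.Agent.S24Lib Fermat.Agent.T1 ModularCurve
open UpperHalfPlane Matrix MatrixGroups CongruenceSubgroup WithZero ModularGroup
open AlgebraicCurve Fermat.Agent.Curve Fermat.Agent.Curve.GaloisAux Fermat.Agent.Curve.PlaceAux
attribute [local instance] KMod.charZero_k

variable {𝕜 : Type} [Field 𝕜] [IsAlgClosed 𝕜] [Algebra 𝕜 ℂ] [Algebra ℚ 𝕜]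
  {Γ : Subgroup SL(2, ℤ)} {h : ℕ} [NeZero h] {F₀ : IntermediateField ℚ (LaurentSeries ℚ)}
  (M : TgdModel 𝕜 Γ h F₀)

namespace TgdModel

/-- a function of order `k` at a given place -/
theorem exists_ord_eq (P : Place 𝕜 ↥(laurentBaseChange 𝕜 F₀)) (k : ℤ) :
    ∃ x : ↥(laurentBaseChange 𝕜 F₀), x ≠ 0 ∧ ∀ e : ℤ, e * P.ord x = e * k := by
  obtain ⟨π, hπ⟩ := IsDiscreteValuationRing.exists_irreducible P.toValuationSubring
  have hπ1 : P.ord (π : ↥(laurentBaseChange 𝕜 F₀)) = 1 := P.ord_coe_irreducible hπ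
  have hπ0 : (π : ↥(laurentBaseChange 𝕜 F₀)) ≠ 0 := by
    intro h0
    rw [h0, Place.ord_zero] at hπ1
    exact zero_ne_one hπ1
  refine ⟨(π : ↥(laurentBaseChange 𝕜 F₀)) ^ k, zpow_ne_zero _ hπ0, fun e => ?_⟩
  rw [Place.ord_zpow, hπ1, mul_one]

/-- **points, invariant form**: the order of `y` at `τ` is `m` times the order of a
`Γ`-invariant function -/
theorem exists_inv_ord_point {m : ℕ} {y : ↥(laurentBaseChange 𝕜 F₀)}
    (hy : ∀ P : Place 𝕜 ↥(laurentBaseChange 𝕜 F₀), (m : ℤ) ∣ P.ord y) (τ : ℍ) :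
    ∃ x : ↥(laurentBaseChange 𝕜 F₀), x ≠ 0 ∧
      tdmOrd τ (tgxToMer M.G (M.toF y)) = m * tdmOrd τ (tgxToMer M.G (M.toF x)) := by
  by_cases hτ : ∃ a : 𝕜, (algebraMap 𝕜 ℂ) a = jFun τ
  · obtain ⟨a, ha⟩ := hτ
    obtain ⟨E, hE, h1⟩ := M.exists_tdmOrd_eq_mul_barPlace τ a ha
    set P := M.barPlace (tgxPointPlace M.G τ a ha) with hP
    obtain ⟨k, hk⟩ := hy P
    obtain ⟨x, hx0, hx⟩ := exists_ord_eq P k
    refine ⟨x, hx0, ?_⟩
    rw [h1, h1, hk, hx]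
    ring
  · push Not at hτ
    refine ⟨1, one_ne_zero, ?_⟩
    rw [tgx_tdmOrd_toMer_eq_zero_of_forall_ne M.G τ hτ,
      tgx_tdmOrd_toMer_eq_zero_of_forall_ne M.G τ hτ, mul_zero]

/-- **cusps, invariant form**: the order of the `q_h`-expansion of `y ∘ σ⁻¹` is `m` times that of a
`Γ`-invariant function -/
theorem exists_inv_order_cusp {m : ℕ} {y : ↥(laurentBaseChange 𝕜 F₀)} (hy0 : y ≠ 0)
    (hy : ∀ P : Place 𝕜 ↥(laurentBaseChange 𝕜 F₀), (m : ℤ) ∣ P.ord y) (σ : SL(2, ℤ)) :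
    ∃ x : ↥(laurentBaseChange 𝕜 F₀), x ≠ 0 ∧
      (tgxFieldQL M.G (tgxRep M.G σ (M.toF y))).order
        = m * (tgxFieldQL M.G (tgxRep M.G σ (M.toF x))).order := by
  set v := tgxRep M.G σ⁻¹ • tgxInftyPlace M.G with hv
  obtain ⟨e, he, h1⟩ := M.exists_ord_barPlace v
  set P := M.barPlace v with hP
  obtain ⟨k, hk⟩ := hy P
  obtain ⟨x, hx0, hx⟩ := exists_ord_eq P k
  refine ⟨x, hx0, ?_⟩
  have e1 := tgx_smul_inftyPlace_ord M.G σ⁻¹ _ (M.toF_ne_zero hy0)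
  have e2 := tgx_smul_inftyPlace_ord M.G σ⁻¹ _ (M.toF_ne_zero hx0)
  rw [inv_inv] at e1 e2
  rw [← e1, ← e2, h1, h1, hk, hx]
  ring

/-- **points, predicate form** -/
theorem pred_point {m : ℕ} {y : ↥(laurentBaseChange 𝕜 F₀)}
    (hy : ∀ P : Place 𝕜 ↥(laurentBaseChange 𝕜 F₀), (m : ℤ) ∣ P.ord y) (τ : ℍ) :
    ∃ n : ℤ, tdmOrd τ (tgxToMer M.G (M.toF y)) = m * n ∧
      ∀ γ : SL(2, ℤ), γ ∈ Γ → γ • τ = τ → (denom γ τ ^ (-2 : ℤ)) ^ n = 1 := by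
  obtain ⟨x, hx0, hx⟩ := M.exists_inv_ord_point hy τ
  refine ⟨_, hx, fun γ hγ hγτ => ?_⟩
  have hg : tgxToMer M.G (M.toF x) ≠ 0 := tgxToMer_ne_zero M.G (M.toF_ne_zero hx0)
  have h1 : tdmSL γ (tgxToMer M.G (M.toF x)) = (1 : ℂ) • tgxToMer M.G (M.toF x) := by
    have := tgxToMer_rep M.G γ⁻¹ (M.toF x)
    rw [inv_inv, M.toF_fixed x (inv_mem hγ)] at this
    rw [one_smul]
    exact this.symm
  have h2 := tdm_const_of_fixed γ τ hγτ _ hg 1 h1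
  rw [KMod.tdd_denom_zpow_neg_two]
  exact h2.symm

/-- **cusps, predicate form** -/
theorem pred_cusp {m : ℕ} {y : ↥(laurentBaseChange 𝕜 F₀)} (hy0 : y ≠ 0)
    (hy : ∀ P : Place 𝕜 ↥(laurentBaseChange 𝕜 F₀), (m : ℤ) ∣ P.ord y) (σ : SL(2, ℤ)) :
    ∃ n : ℤ, (tgxFieldQL M.G (tgxRep M.G σ (M.toF y))).order = m * n ∧
      ∀ k : ℤ, σ⁻¹ * T ^ k * σ ∈ Γ → (h : ℤ) ∣ k * n := by
  obtain ⟨x, hx0, hx⟩ := M.exists_inv_order_cusp hy0 hy σ
  refine ⟨_, hx, fun k hk => ?_⟩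
  set Z := tgxRep M.G σ (M.toF x) with hZ
  have hZ0 : Z ≠ 0 := (map_ne_zero _).mpr (M.toF_ne_zero hx0)
  have hg : tgxToMer M.G Z ≠ 0 := tgxToMer_ne_zero M.G hZ0
  have hfix : tgxRep M.G (T ^ k)⁻¹ Z = Z := by
    have h1 : (T ^ k)⁻¹ * σ = σ * (σ⁻¹ * T ^ k * σ)⁻¹ := by group
    rw [hZ, ← AlgEquiv.mul_apply, ← map_mul, h1, map_mul, AlgEquiv.mul_apply,
      M.toF_fixed x (inv_mem hk)]
  have h1 : tdmSL (T ^ k) (tgxToMer M.G Z) = (1 : ℂ) • tgxToMer M.G Z := by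
    have := tgxToMer_rep M.G (T ^ k)⁻¹ Z
    rw [inv_inv, hfix] at this
    rw [one_smul]
    exact this.symm
  obtain ⟨A, B, C, w₀, hw₀, hAB, hB, hlim⟩ := tgx_cusp_analytic M.G Z hZ0
  have h2 := tdm_mult_of_cusp 1 one_pos (tgxToMer M.G Z) k 1 h1 A B (by rw [pow_one]; exact hAB) C
    hB _ w₀ hw₀ hlim
  obtain ⟨j, hj⟩ := Complex.exp_eq_one_iff.mp h2.symm
  set n := (tgxFieldQL M.G Z).order with hn
  have hN : (h : ℂ) ≠ 0 := by exact_mod_cast NeZero.ne h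
  have hpi : (2 * (Real.pi : ℂ) * Complex.I) ≠ 0 := Complex.two_pi_I_ne_zero
  have h3 : ((k * n : ℤ) : ℂ) = ((j * h : ℤ) : ℂ) := by
    push_cast at hj ⊢
    field_simp at hj
    linear_combination hj
  have h4 : k * n = j * h := by exact_mod_cast h3
  exact ⟨j, by rw [h4]; ring⟩

end TgdModel

end Fermat.Agent.T1G
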