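/-
T1G-AN (C) AN-DICT (helper3), part 2: the exact ramification of the ambient field `TgxField G` over
the function field of `Γ \ ℍ*` at the points and the cusps, in the form needed for the converse
direction of the dictionary.  Generic version (in `Γ`) of `Lib/T1/Dict/StabCount.lean`; the new point
is that the kernel of the action on the ambient field is only contained in `± Γ`.
-/
import Mathlib
import Fermat.Agent.Lib.T1G.Dict.Model

set_option autoImplicit false
set_option linter.unusedSectionVars false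
set_option linter.style.haveILetI false
set_option linter.unusedVariables false

namespace Fermat.Agent.T1G

open Fermat.Agent.S24Lib Fermat.Agent.T1 ModularCurve
open UpperHalfPlane Matrix MatrixGroups CongruenceSubgroup WithZero ModularGroup
open AlgebraicCurve Fermat.Agent.Curve Fermat.Agent.Curve.GaloisAux Fermat.Agent.Curve.PlaceAux
attribute [local instance] KMod.charZero_k

variable {𝕜 : Type} [Field 𝕜] [IsAlgClosed 𝕜] [Algebra 𝕜 ℂ] [Algebra ℚ 𝕜]
  {Γ : Subgroup SL(2, ℤ)} {h : ℕ} [NeZero h] {F₀ : IntermediateField ℚ (LaurentSeries ℚ)}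
  (M : TgdModel 𝕜 Γ h F₀)

namespace TgdModel

/-- if all place orders of `y` are divisible by `m`, so is the order of the `q_h`-expansion of
`y ∘ γ⁻¹`, for every `γ` -/
theorem dvd_order_of_forall_place (m : ℕ) (y : ↥(laurentBaseChange 𝕜 F₀)) (hy0 : y ≠ 0)
    (hy : ∀ P : Place 𝕜 ↥(laurentBaseChange 𝕜 F₀), (m : ℤ) ∣ P.ord y) (γ : SL(2, ℤ)) :
    (m : ℤ) ∣ (tgxFieldQL M.G (tgxRep M.G γ (M.toF y))).order := by
  have h1 := tgx_smul_inftyPlace_ord M.G γ⁻¹ _ (M.toF_ne_zero hy0)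
  rw [inv_inv] at h1
  rw [← h1]
  obtain ⟨e, -, he⟩ := M.exists_ord_barPlace (tgxRep M.G γ⁻¹ • tgxInftyPlace M.G)
  rw [he y]
  exact Dvd.dvd.mul_left (hy _) _

theorem toF_jG_sub (a : 𝕜) :
    ((M.jG - algebraMap 𝕜 M.fixF a : M.fixF) : TgxField M.G)
      = tgxJL M.G - algebraMap 𝕜 (TgxField M.G) a := rfl

/-- **ramification at the points**: the factor `E` between the analytic order at `τ` and the order
at the place of the function field below `tgxPointPlace τ` divides `ε = ord_τ (j - j(τ))`, and if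
`E = ε` then the whole stabiliser of `τ` in `SL(2,ℤ)` lies in `± Γ`. -/
theorem exists_E_pointPlace (τ : ℍ) (a : 𝕜) (ha : (algebraMap 𝕜 ℂ) a = jFun τ) :
    ∃ E : ℕ, 0 < E ∧
      (∀ y : ↥(laurentBaseChange 𝕜 F₀),
        tdmOrd τ (tgxToMer M.G (M.toF y))
          = (E : ℤ) * (M.barPlace (tgxPointPlace M.G τ a ha)).ord y) ∧
      ((E : ℤ) ∣ tdmOrd τ (tgxToMer M.G (tgxJL M.G - algebraMap 𝕜 (TgxField M.G) a))) ∧
      ((E : ℤ) = tdmOrd τ (tgxToMer M.G (tgxJL M.G - algebraMap 𝕜 (TgxField M.G) a)) →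
        ∀ δ : SL(2, ℤ), δ • τ = τ → δ ∈ Γ ∨ -δ ∈ Γ) := by
  set v := tgxPointPlace M.G τ a ha with hv
  obtain ⟨M', hM', h1⟩ := tgx_exists_tdmOrd_eq_mul_pointPlace M.G τ a ha
  haveI := tgx_finite_range_rep M.G
  set eH := Nat.card {g : (Γ.map (tgxRep M.G)) //
          (g : TgxField M.G ≃ₐ[𝕜] TgxField M.G) • v = v} with heH
  have heHpos : 0 < eH := by
    haveI : Nonempty {g : (Γ.map (tgxRep M.G)) //
          (g : TgxField M.G ≃ₐ[𝕜] TgxField M.G) • v = v} := ⟨⟨1, one_smul _ _⟩⟩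
    haveI : Finite {g : (Γ.map (tgxRep M.G)) //
          (g : TgxField M.G ≃ₐ[𝕜] TgxField M.G) • v = v} := Subtype.finite
    exact Nat.card_pos
  have h2 : ∀ y : ↥(laurentBaseChange 𝕜 F₀), v.ord (M.toF y)
      = (eH : ℤ) * (M.barPlace v).ord y := M.ord_eq_card_mul_barPlace v
  have hSG := card_stabilizer_eq_ord (tgxRep M.G).range
    (tgxJL M.G - algebraMap 𝕜 (TgxField M.G) a) (tgx_transcendental_jL_sub M.G a)
    (tgx_fixedField_rep_sub M.G a) v (tgxPointPlace_ord_pos M.G τ a ha)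
  -- the element of the function field corresponding to `j - a`
  set ja : ↥(laurentBaseChange 𝕜 F₀) := M.iso.symm (M.jG - algebraMap 𝕜 M.fixF a) with hja
  have hja' : M.toF ja = tgxJL M.G - algebraMap 𝕜 (TgxField M.G) a := by
    unfold toF
    rw [hja, AlgEquiv.apply_symm_apply]
    rfl
  -- the order of `j - a` below
  set k := (M.barPlace v).ord ja with hk
  have h3 : v.ord (tgxJL M.G - algebraMap 𝕜 (TgxField M.G) a) = (eH : ℤ) * k := by
    rw [← hja']
    exact h2 _
  have h4 : tdmOrd τ (tgxToMer M.G (tgxJL M.G - algebraMap 𝕜 (TgxField M.G) a))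
      = ((M' * eH : ℕ) : ℤ) * k := by
    rw [h1, h3]
    push_cast
    ring
  refine ⟨M' * eH, Nat.mul_pos hM' heHpos, fun y => ?_, ?_, ?_⟩
  · rw [h1, h2]
    push_cast
    ring
  · exact ⟨k, h4⟩
  · intro hE δ hδ
    -- `k = 1`, so the two stabilisers have the same cardinality
    have hk1 : k = 1 := by
      have hpos : (0 : ℤ) < ((M' * eH : ℕ) : ℤ) := by exact_mod_cast Nat.mul_pos hM' heHpos
      have : ((M' * eH : ℕ) : ℤ) * 1 = ((M' * eH : ℕ) : ℤ) * k := by
        rw [mul_one, ← h4, ← hE]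
      exact (mul_left_cancel₀ hpos.ne' this).symm
    have hcard : Nat.card {g : (tgxRep M.G).range //
        (g : TgxField M.G ≃ₐ[𝕜] TgxField M.G) • v = v} = eH := by
      have : (Nat.card {g : (tgxRep M.G).range //
        (g : TgxField M.G ≃ₐ[𝕜] TgxField M.G) • v = v} : ℤ) = (eH : ℤ) := by
        rw [hSG, h3, hk1, mul_one]
      exact_mod_cast this
    let ι : {g : (Γ.map (tgxRep M.G)) //
          (g : TgxField M.G ≃ₐ[𝕜] TgxField M.G) • v = v} →
        {g : (tgxRep M.G).range // (g : TgxField M.G ≃ₐ[𝕜] TgxField M.G) • v = v} := fun x =>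
      ⟨⟨x.1.1, Subgroup.map_le_range (tgxRep M.G) Γ x.1.2⟩, x.2⟩
    have hinj : Function.Injective ι := by
      intro x y hxy
      apply Subtype.ext
      apply Subtype.ext
      have := congrArg (fun z : {g : (tgxRep M.G).range //
        (g : TgxField M.G ≃ₐ[𝕜] TgxField M.G) • v = v} =>
        ((z.1 : (tgxRep M.G).range) : TgxField M.G ≃ₐ[𝕜] TgxField M.G)) hxy
      exact this
    haveI : Finite {g : (tgxRep M.G).range //
        (g : TgxField M.G ≃ₐ[𝕜] TgxField M.G) • v = v} := Subtype.finite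
    have hbij := Function.Injective.bijective_of_nat_card_le hinj (by rw [hcard])
    obtain ⟨x, hx⟩ := hbij.2 ⟨⟨tgxRep M.G δ, δ, rfl⟩, tgxRep_smul_pointPlace M.G τ a ha hδ⟩
    have hx' : (x.1.1 : TgxField M.G ≃ₐ[𝕜] TgxField M.G) = tgxRep M.G δ := by
      have := congrArg (fun z : {g : (tgxRep M.G).range //
        (g : TgxField M.G ≃ₐ[𝕜] TgxField M.G) • v = v} =>
        ((z.1 : (tgxRep M.G).range) : TgxField M.G ≃ₐ[𝕜] TgxField M.G)) hx
      exact this
    apply M.mem_or_neg_mem_of_rep_mem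
    rw [← hx']
    exact x.1.2

/-- **ramification at the cusps**: the factor `e` between the order of the `q_h`-expansion at the
cusp `γ∞` and the order at the place of the function field below divides every `n` with
`h ∣ k n` for all `k` such that `γ T^k γ⁻¹ ∈ Γ`. -/
theorem exists_e_cuspPlace (γ : SL(2, ℤ)) :
    ∃ e : ℕ, 0 < e ∧
      (∀ y : ↥(laurentBaseChange 𝕜 F₀), y ≠ 0 →
        (tgxFieldQL M.G (tgxRep M.G γ⁻¹ (M.toF y))).order
          = (e : ℤ) * (M.barPlace (tgxRep M.G γ • tgxInftyPlace M.G)).ord y) ∧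
      (∀ n : ℤ, (∀ k : ℤ, γ * T ^ k * γ⁻¹ ∈ Γ → (h : ℤ) ∣ k * n) → (e : ℤ) ∣ n) := by
  set v := tgxRep M.G γ • tgxInftyPlace M.G with hv
  haveI := tgx_finite_range_rep M.G
  set e := Nat.card {g : (Γ.map (tgxRep M.G)) //
          (g : TgxField M.G ≃ₐ[𝕜] TgxField M.G) • v = v} with he
  have hepos : 0 < e := by
    haveI : Nonempty {g : (Γ.map (tgxRep M.G)) //
          (g : TgxField M.G ≃ₐ[𝕜] TgxField M.G) • v = v} := ⟨⟨1, one_smul _ _⟩⟩
    haveI : Finite {g : (Γ.map (tgxRep M.G)) //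
          (g : TgxField M.G ≃ₐ[𝕜] TgxField M.G) • v = v} := Subtype.finite
    exact Nat.card_pos
  refine ⟨e, hepos, fun y hy => ?_, fun n hn => ?_⟩
  · rw [← tgx_smul_inftyPlace_ord M.G γ _ (M.toF_ne_zero hy)]
    exact M.ord_eq_card_mul_barPlace v y
  · -- the stabiliser as a subgroup
    set S : Subgroup (TgxField M.G ≃ₐ[𝕜] TgxField M.G) :=
      MulAction.stabilizer (TgxField M.G ≃ₐ[𝕜] TgxField M.G) v ⊓ Γ.map (tgxRep M.G)
      with hS
    have hcard : e = Nat.card S := by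
      rw [he]
      refine Nat.card_congr
        { toFun := fun x => ⟨x.1.1, ⟨x.2, x.1.2⟩⟩
          invFun := fun s => ⟨⟨s.1, s.2.2⟩, s.2.1⟩
          left_inv := fun x => rfl
          right_inv := fun s => rfl }
    set t := tgxRep M.G (γ * T * γ⁻¹) with ht
    have hkey : ∀ g ∈ S, ∃ k : ℤ, g = t ^ k ∧ γ * T ^ k * γ⁻¹ ∈ Γ := by
      rintro g ⟨hg1, hg2⟩
      obtain ⟨γ', hγ', rfl⟩ := hg2
      have hg1' : tgxRep M.G γ' • v = v := hg1
      have hfix : tgxRep M.G (γ⁻¹ * γ' * γ) • tgxInftyPlace M.G = tgxInftyPlace M.G := by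
        rw [map_mul, map_mul, mul_smul, mul_smul, ← hv, hg1', hv, ← mul_smul, ← map_mul,
          inv_mul_cancel, map_one, one_smul]
      obtain ⟨δ, hδ, hδe⟩ := (tgx_inftyPlace_stabilizer M.G _).mp hfix
      obtain ⟨k, rfl⟩ := Subgroup.mem_zpowers_iff.mp hδ
      have hγ'e : tgxRep M.G γ' = tgxRep M.G (γ * T ^ k * γ⁻¹) := by
        have h1 : γ' = γ * (γ⁻¹ * γ' * γ) * γ⁻¹ := by group
        conv_lhs => rw [h1]
        rw [map_mul, map_mul, hδe, ← map_mul, ← map_mul]
      refine ⟨k, ?_, ?_⟩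
      · rw [hγ'e, ht, ← map_zpow, conj_zpow]
      · have h1 : γ * T ^ k * γ⁻¹ ∈ Γ ∨ -(γ * T ^ k * γ⁻¹) ∈ Γ := by
          apply M.mem_or_neg_mem_of_rep_mem
          rw [← hγ'e]
          exact ⟨γ', hγ', rfl⟩
        rcases h1 with h1 | h1
        · exact h1
        · have h2 := M.grp.neg_conj γ⁻¹ k
          rw [inv_inv] at h2
          exact h2 h1
    have hSle : S ≤ Subgroup.zpowers t := by
      intro g hg
      obtain ⟨k, hgk, -⟩ := hkey g hg
      rw [hgk]
      exact Subgroup.zpow_mem_zpowers t k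
    have hpow : ∀ g ∈ S, g ^ n = 1 := by
      intro g hg
      obtain ⟨k, hgk, hmem⟩ := hkey g hg
      have hdvd := hn k hmem
      rw [hgk, ← _root_.zpow_mul, ht, ← map_zpow, conj_zpow, map_mul, map_mul, map_zpow]
      have h1 : tgxRep M.G T ^ (k * n) = 1 := by
        rw [← orderOf_dvd_iff_zpow_eq_one, tgx_orderOf_rep_T M.G]
        exact hdvd
      rw [h1, mul_one, ← map_mul, mul_inv_cancel, map_one]
    have := tdd_card_dvd_of_le_zpowers S t hSle n hpow
    rwa [← hcard] at this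

end TgdModel

end Fermat.Agent.T1G
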