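/-
T1G-AN (C) AN-DICT (helper3), part 4: the dictionary, direction "points and cusps ⇒ places", and the
assembled dictionary `TgdModel.dict : TgdDict 𝕜 Γ h F₀`.
Generic version (in `Γ`) of `Lib/T1/Dict/DictBwd.lean`.
-/
import Mathlib
import Fermat.Agent.Lib.T1G.Dict.StabCount
import Fermat.Agent.Lib.T1G.Dict.DictFwd

set_option autoImplicit false
set_option linter.unusedSectionVars false
set_option linter.style.haveILetI false
set_option linter.unusedVariables false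

namespace Fermat.Agent.T1G

open Fermat.Agent.S24Lib Fermat.Agent.T1 ModularCurve
open UpperHalfPlane Matrix MatrixGroups CongruenceSubgroup WithZero ModularGroup
open AlgebraicCurve Fermat.Agent.Curve Fermat.Agent.Curve.GaloisAux Fermat.Agent.Curve.PlaceAux
attribute [local instance] KMod.charZero_k

/-- the multiplier of `-δ` is that of `δ` -/
theorem tgd_denom_neg_zpow (δ : SL(2, ℤ)) (τ : ℍ) :
    denom ((-δ : SL(2, ℤ)) : GL (Fin 2) ℝ) τ ^ (-2 : ℤ)
      = denom (δ : GL (Fin 2) ℝ) τ ^ (-2 : ℤ) := by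
  have h1 : denom ((-δ : SL(2, ℤ)) : GL (Fin 2) ℝ) τ = -denom (δ : GL (Fin 2) ℝ) τ := by
    rw [ModularGroup.denom_apply, ModularGroup.denom_apply]
    simp
    ring
  rw [h1, Even.neg_zpow ⟨-1, by norm_num⟩]

/-- a condition on the multipliers of the elements of `Γ` holds for those of `± Γ` -/
theorem tgd_mult_of_mem_or_neg {Γ : Subgroup SL(2, ℤ)} {τ : ℍ} {n : ℤ}
    (hcond : ∀ γ : SL(2, ℤ), γ ∈ Γ → γ • τ = τ → (denom γ τ ^ (-2 : ℤ)) ^ n = 1)
    (δ : SL(2, ℤ)) (hδ : δ ∈ Γ ∨ -δ ∈ Γ) (hfix : δ • τ = τ) :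
    (denom δ τ ^ (-2 : ℤ)) ^ n = 1 := by
  rcases hδ with h | h
  · exact hcond δ h hfix
  · have h1 := hcond (-δ) h (by rw [ModularGroup.SL_neg_smul]; exact hfix)
    rwa [tgd_denom_neg_zpow] at h1

variable {𝕜 : Type} [Field 𝕜] [IsAlgClosed 𝕜] [Algebra 𝕜 ℂ] [Algebra ℚ 𝕜]
  {Γ : Subgroup SL(2, ℤ)} {h : ℕ} [NeZero h] {F₀ : IntermediateField ℚ (LaurentSeries ℚ)}
  (M : TgdModel 𝕜 Γ h F₀)

namespace TgdModel

/-- **the dictionary, converse direction** -/
theorem forall_place_of_pred {m : ℕ} {y : ↥(laurentBaseChange 𝕜 F₀)} (hy0 : y ≠ 0)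
    (hA : ∀ τ : ℍ, ∃ n : ℤ, tdmOrd τ (tgxToMer M.G (M.toF y)) = m * n ∧
      ∀ γ : SL(2, ℤ), γ ∈ Γ → γ • τ = τ → (denom γ τ ^ (-2 : ℤ)) ^ n = 1)
    (hB : ∀ σ : SL(2, ℤ), ∃ n : ℤ,
      (tgxFieldQL M.G (tgxRep M.G σ (M.toF y))).order = m * n ∧
      ∀ k : ℤ, σ⁻¹ * T ^ k * σ ∈ Γ → (h : ℤ) ∣ k * n) :
    ∀ P : Place 𝕜 ↥(laurentBaseChange 𝕜 F₀), (m : ℤ) ∣ P.ord y := by
  intro P
  obtain ⟨v, rfl⟩ := M.exists_barPlace_eq P
  rcases tgx_place_cases M.G v with ⟨γ, rfl⟩ | ⟨a, τ₀, ha, γ, hb0, hb1, rfl⟩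
  · -- a cusp
    obtain ⟨e, he, h1, h2⟩ := M.exists_e_cuspPlace γ
    obtain ⟨n, hn, hcond⟩ := hB γ⁻¹
    have h3 := h1 y hy0
    have h4 : (e : ℤ) ∣ n := by
      apply h2 n
      intro k hk
      apply hcond k
      rwa [inv_inv]
    refine KMod.dvd_of_mul_eq_mul he ?_ h4
    rw [← h3]
    exact hn
  · -- a point
    have ha' : (algebraMap 𝕜 ℂ) a = jFun (γ • τ₀) := by rw [jFun_smul]; exact ha
    rw [tgx_smul_pointPlace M.G γ τ₀ a ha ha']
    set τ := γ • τ₀ with hτ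
    obtain ⟨E, hE, h1, h2, h3⟩ := M.exists_E_pointPlace τ a ha'
    obtain ⟨n, hn, hcond⟩ := hA τ
    have hε : tdmOrd τ (tgxToMer M.G (tgxJL M.G - algebraMap 𝕜 (TgxField M.G) a))
        = ((ordAt (fun z => jFun z - (algebraMap 𝕜 ℂ) a) τ₀).toNat : ℤ) := by
      rw [tgx_tdmOrd_jL_sub, hτ, KMod.ordAt_jFun_sub_smul]
    rw [hε] at h2 h3
    have hEn : (E : ℤ) ∣ n := by
      by_cases h0 : a = 0
      · -- `τ₀ = ρ`
        have hτ₀ := hb0 h0
        subst hτ₀
        have hf : (fun z => jFun z - (algebraMap 𝕜 ℂ) a) = jFun := by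
          funext z
          rw [h0, map_zero, sub_zero]
        rw [hf, ordAt_jFun_ellRho] at h2 h3
        have hE3 : E ∣ 3 := by
          have : ((E : ℤ)) ∣ ((3 : ℕ) : ℤ) := by simpa using h2
          exact Int.natCast_dvd_natCast.mp this
        rcases (Nat.dvd_prime Nat.prime_three).mp hE3 with h1E | h3E
        · rw [h1E]; simp
        · have hmem := h3 (by rw [h3E]; simp) (γ * (ModularGroup.S * ModularGroup.T) * γ⁻¹)
            (tdd_smul_conj γ _ ellRho ST_smul_ellRho)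
          have h5 := tgd_mult_of_mem_or_neg hcond _ hmem (tdd_smul_conj γ _ ellRho ST_smul_ellRho)
          rw [tdd_denom_conj γ _ ellRho ST_smul_ellRho] at h5
          rw [h3E]
          exact tdd_mult_ST_rho n h5
      by_cases h1728 : a = 1728
      · -- `τ₀ = i`
        have hτ₀ := hb1 h1728
        subst hτ₀
        have hf : (fun z => jFun z - (algebraMap 𝕜 ℂ) a) = fun z => jFun z - 1728 := by
          funext z
          rw [h1728, KMod.iotaC_ofNat 𝕜]
        rw [hf, ordAt_jFun_sub_I] at h2 h3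
        have hE2 : E ∣ 2 := by
          have : ((E : ℤ)) ∣ ((2 : ℕ) : ℤ) := by simpa using h2
          exact Int.natCast_dvd_natCast.mp this
        rcases (Nat.dvd_prime Nat.prime_two).mp hE2 with h1E | h2E
        · rw [h1E]; simp
        · have hmem := h3 (by rw [h2E]; simp) (γ * ModularGroup.S * γ⁻¹)
            (tdd_smul_conj γ _ UpperHalfPlane.I S_smul_I)
          have h5 := tgd_mult_of_mem_or_neg hcond _ hmem
            (tdd_smul_conj γ _ UpperHalfPlane.I S_smul_I)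
          rw [tdd_denom_conj γ _ UpperHalfPlane.I S_smul_I] at h5
          rw [h2E]
          exact tdd_mult_S_I n h5
      · -- a generic point
        have hj0 : jFun τ₀ ≠ 0 := by
          rw [← ha, Ne, map_eq_zero]
          exact h0
        have hj1 : jFun τ₀ ≠ 1728 := by
          rw [← ha, ← KMod.iotaC_ofNat 𝕜]
          exact fun h => h1728 ((algebraMap 𝕜 ℂ).injective h)
        have h5 := ordAt_jFun_sub_of_ne τ₀ hj0 hj1
        rw [← ha] at h5
        rw [h5] at h2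
        have hE1 : E ∣ 1 := by
          have : ((E : ℤ)) ∣ ((1 : ℕ) : ℤ) := by simpa using h2
          exact Int.natCast_dvd_natCast.mp this
        rw [Nat.dvd_one.mp hE1]
        simp
    refine KMod.dvd_of_mul_eq_mul hE ?_ hEn
    rw [← h1 y]
    exact hn

/-! ### The assembled dictionary -/

/-- the function on `ℍ` of an element of the function field -/
noncomputable def fn : ↥(laurentBaseChange 𝕜 F₀) →+* tdmMer := (tgxToMer M.G).comp M.toFHom

theorem fn_apply (y : ↥(laurentBaseChange 𝕜 F₀)) : M.fn y = tgxToMer M.G (M.toF y) := rfl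

/-- the `q_h`-expansion of `y ∘ σ⁻¹`, with coefficients in `𝕜` -/
noncomputable def ex (σ : SL(2, ℤ)) : ↥(laurentBaseChange 𝕜 F₀) →+* LaurentSeries 𝕜 :=
  (tgxFieldQk M.G).comp
    (((tgxRep M.G σ : TgxField M.G ≃ₐ[𝕜] TgxField M.G) : TgxField M.G →+* TgxField M.G).comp
      M.toFHom)

theorem ex_apply (σ : SL(2, ℤ)) (y : ↥(laurentBaseChange 𝕜 F₀)) :
    M.ex σ y = tgxFieldQk M.G (tgxRep M.G σ (M.toF y)) := rfl

theorem ex_order (σ : SL(2, ℤ)) (y : ↥(laurentBaseChange 𝕜 F₀)) :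
    (M.ex σ y).order = (tgxFieldQL M.G (tgxRep M.G σ (M.toF y))).order := by
  rw [ex_apply, tgxFieldQk_order]

theorem coeffMap_ex (σ : SL(2, ℤ)) (y : ↥(laurentBaseChange 𝕜 F₀)) :
    coeffMap (algebraMap 𝕜 ℂ) (M.ex σ y) = tgxFieldQL M.G (tgxRep M.G σ (M.toF y)) := by
  rw [ex_apply, coeffMap_tgxFieldQk]

theorem fn_inv (y : ↥(laurentBaseChange 𝕜 F₀)) : tdmIsInv Γ (M.fn y) := by
  intro γ
  have := tgxToMer_rep M.G (γ : SL(2, ℤ))⁻¹ (M.toF y)
  rw [inv_inv, M.toF_fixed y (inv_mem γ.2)] at this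
  exact this.symm

/-- **THE ANALYTIC DICTIONARY** for the function field of `Γ \ ℍ*` over `𝕜` -/
noncomputable def dict : TgdDict 𝕜 Γ h F₀ where
  grp := M.grp
  fn := M.fn
  fn_inv := M.fn_inv
  ex := M.ex
  dict := fun m y => by
    simp only [ex_order, fn_apply]
    exact ⟨fun hy => ⟨fun τ => M.pred_point (mem_tgWsub.mp hy) τ,
        fun σ => M.pred_cusp y.ne_zero (mem_tgWsub.mp hy) σ⟩,
      fun hh => mem_tgWsub.mpr (M.forall_place_of_pred y.ne_zero hh.1 hh.2)⟩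
  cusp := fun σ y hy => by
    have h1 := tgx_cusp_analytic M.G (tgxRep M.G σ (M.toF y))
      ((map_ne_zero _).mpr (M.toF_ne_zero hy))
    rw [tgxToMer_rep] at h1
    simp only [ex_order, fn_apply]
    exact h1

@[simp]
theorem dict_fn : M.dict.fn = M.fn := rfl

@[simp]
theorem dict_ex : M.dict.ex = M.ex := rfl

end TgdModel

end Fermat.Agent.T1G
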