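/-
T1G-AN (C) AN-DICT (helper3), part 7: **`tgd_hol_mem_range`** — a holomorphic function on `ℍ` with a
`q_h`-Laurent expansion at every cusp which is invariant under the kernel of the action on
`TgxField G` lies in (the image in `tdmMer` of) `TgxField G`; for a model `M` of the function field
of `Γ \ ℍ*`, the `Γ`-invariant such functions are in the function field
(`TgdModel.hol_invariant_mem`).  Lagrange interpolation as in helper4's
`Lib/T1/Dict/AutoHol.lean`, with `θ` a primitive element inside the ring.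
-/
import Mathlib
import Fermat.Agent.Lib.T1G.Dict.AutoPrim
import Fermat.Agent.Lib.T1G.Dict.DictBwd

set_option autoImplicit false
set_option linter.unusedSectionVars false
set_option linter.style.haveILetI false
set_option linter.unusedVariables false

namespace Fermat.Agent.T1G

open Fermat.Agent.S24Lib Fermat.Agent.T1 ModularCurve
open UpperHalfPlane Matrix MatrixGroups CongruenceSubgroup
open scoped Manifold
open Fermat.Agent.ES (IsQLaurentable qLaurent)
attribute [local instance] KMod.charZero_k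

section Interp

variable {h : ℕ} [NeZero h] (G : TgxGens ℂ h)

noncomputable instance tgdFintypeQuot : Fintype (SL(2, ℤ) ⧸ (tgxRep G).ker) :=
  haveI : Finite (SL(2, ℤ) ⧸ (tgxRep G).ker) := Subgroup.finite_quotient_of_finiteIndex
  Fintype.ofFinite _

open Classical in
/-- **key step**: for `g ∈ tddW h` invariant under the kernel of the action and a primitive element
`p` of the ring, `g * ∏_{q ≠ 1} (θ - θ_q)` lies in the image of `TgxField G` -/
theorem tgd_tddWToMer_mul_diff_mem (p : tgxRing G) (g : tddW h)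
    (hg : ∀ γ ∈ (tgxRep G).ker, tddWAct h γ g = g) :
    tddWToMer h g * tddWToMer h
      (∏ q' ∈ Finset.univ.erase (QuotientGroup.mk 1 : SL(2, ℤ) ⧸ (tgxRep G).ker),
        (tgdOfRing G p - tddFam (tgxRep G).ker (tddWAct h) (tgdOfRing G p) q')) ∈ tgdAnL G := by
  classical
  have hθ : ∀ γ ∈ (tgxRep G).ker, tddWAct h γ (tgdOfRing G p) = tgdOfRing G p := by
    intro γ hγ
    rw [tddWAct_tgdOfRing, tgxAct_apply_of_rep_eq_one G (MonoidHom.mem_ker.mp hγ)]
  set P := tddInterp (tddFam (tgxRep G).ker (tddWAct h) g)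
    (tddFam (tgxRep G).ker (tddWAct h) (tgdOfRing G p)) with hP
  have heval := tddInterp_fam_eval hg hθ
  rw [← hP] at heval
  have h1 : tddWToMer h g * tddWToMer h
      (∏ q' ∈ Finset.univ.erase (QuotientGroup.mk 1 : SL(2, ℤ) ⧸ (tgxRep G).ker),
        (tgdOfRing G p - tddFam (tgxRep G).ker (tddWAct h) (tgdOfRing G p) q'))
      = tddWToMer h (P.eval (tgdOfRing G p)) := by
    rw [heval, map_mul]
  rw [h1, Polynomial.eval_eq_sum_range, map_sum]
  refine Subfield.sum_mem _ (fun m _ => ?_)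
  rw [map_mul, map_pow]
  refine mul_mem ?_ (pow_mem ?_ m)
  · exact tgd_tddWToMer_mem_of_invariant G _ (fun δ => tddInterp_fam_coeff hg hθ δ m)
  · rw [tddWToMer_tgdOfRing, mem_tgdAnL]
    exact ⟨_, rfl⟩

open Classical in
/-- the different of a primitive element does not vanish -/
theorem tgd_tddWToMer_diff_ne_zero (p : tgxRing G)
    (hp : ∀ σ : SL(2, ℤ), tgxAct G σ p = p → tgxRep G σ = 1) :
    tddWToMer h
      (∏ q' ∈ Finset.univ.erase (QuotientGroup.mk 1 : SL(2, ℤ) ⧸ (tgxRep G).ker),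
        (tgdOfRing G p - tddFam (tgxRep G).ker (tddWAct h) (tgdOfRing G p) q')) ≠ 0 := by
  classical
  have hθ : ∀ γ ∈ (tgxRep G).ker, tddWAct h γ (tgdOfRing G p) = tgdOfRing G p := by
    intro γ hγ
    rw [tddWAct_tgdOfRing, tgxAct_apply_of_rep_eq_one G (MonoidHom.mem_ker.mp hγ)]
  rw [map_prod, Finset.prod_ne_zero_iff]
  intro q hq
  rw [Finset.mem_erase] at hq
  rw [Ne, map_eq_zero_iff _ (tddWToMer_injective h), sub_eq_zero]
  intro h0
  apply hq.1
  induction q using QuotientGroup.induction_on with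
  | H σ =>
    rw [tddFam_mk hθ, tddWAct_tgdOfRing] at h0
    have h1 : tgxAct G σ p = p := (tgdOfRing_injective G h0).symm
    have h2 := hp σ h1
    rw [QuotientGroup.eq, mul_one]
    exact inv_mem (MonoidHom.mem_ker.mpr h2)

/-- elements of `tddW h` invariant under the kernel of the action lie in the image of
`TgxField G` -/
theorem tgd_tddWToMer_mem (g : tddW h) (hg : ∀ γ ∈ (tgxRep G).ker, tddWAct h γ g = g) :
    tddWToMer h g ∈ tgdAnL G := by
  classical
  obtain ⟨p, hp⟩ := tgx_exists_primitive G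
  have h1 := tgd_tddWToMer_mul_diff_mem G p g hg
  have h2 := tgd_tddWToMer_mul_diff_mem G p 1 (fun γ _ => map_one _)
  rw [map_one, one_mul] at h2
  have h0 := tgd_tddWToMer_diff_ne_zero G p hp
  set D := tddWToMer h
      (∏ q' ∈ Finset.univ.erase (QuotientGroup.mk 1 : SL(2, ℤ) ⧸ (tgxRep G).ker),
        (tgdOfRing G p - tddFam (tgxRep G).ker (tddWAct h) (tgdOfRing G p) q')) with hD
  have h3 : tddWToMer h g = tddWToMer h g * D * D⁻¹ := by
    rw [mul_assoc, mul_inv_cancel₀ h0, mul_one]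
  rw [h3]
  exact mul_mem h1 (inv_mem h2)

/-- **(1)**: a holomorphic function with a `q_h`-Laurent expansion at every cusp which is invariant
under the kernel of the action on `TgxField G` is a modular function of `TgxField G`. -/
theorem tgd_hol_mem_range (g : ℍ → ℂ) (hg : MDiff g)
    (hinv : ∀ γ ∈ (tgxRep G).ker, ∀ τ, g (γ • τ) = g τ)
    (hL : ∀ σ : SL(2, ℤ), IsQLaurentable h (fun τ => g (σ • τ))) :
    ∃ y : TgxField G, tgxToMer G y = tdmOfHol ⟨g, hg⟩ := by
  have hmem : g ∈ tddW h := hL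
  have h1 := tgd_tddWToMer_mem G ⟨g, hmem⟩ (fun γ hγ => by
    apply Subtype.ext
    funext τ
    rw [tddWAct_apply_apply]
    exact hinv γ⁻¹ (inv_mem hγ) τ)
  rw [mem_tgdAnL] at h1
  exact h1

end Interp

section Model

variable {Γ : Subgroup SL(2, ℤ)} {h : ℕ} [NeZero h] {F₀ : IntermediateField ℚ (LaurentSeries ℚ)}
  (M : TgdModel ℂ Γ h F₀)

namespace TgdModel

/-- an element of the ambient field whose function on `ℍ` is `Γ`-invariant comes from the
function field -/
theorem exists_fn_eq_of_inv (y : TgxField M.G) (hy : tdmIsInv Γ (tgxToMer M.G y)) :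
    ∃ z : ↥(laurentBaseChange ℂ F₀), M.fn z = tgxToMer M.G y := by
  have hmem : y ∈ M.fixF := by
    rintro ⟨g, γ, hγ, rfl⟩
    show tgxRep M.G γ y = y
    apply tgxToMer_injective M.G
    rw [tgxToMer_rep]
    exact hy ⟨γ⁻¹, inv_mem hγ⟩
  refine ⟨M.iso.symm ⟨y, hmem⟩, ?_⟩
  rw [fn_apply]
  unfold toF
  rw [AlgEquiv.apply_symm_apply]

/-- `Γ`-invariant functions on `ℍ` are invariant under the kernel of the action -/
theorem apply_smul_of_rep_eq_one {g : ℍ → ℂ} (hinv : ∀ γ ∈ Γ, ∀ τ, g (γ • τ) = g τ)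
    {γ : SL(2, ℤ)} (hγ : tgxRep M.G γ = 1) (τ : ℍ) : g (γ • τ) = g τ := by
  rcases M.ker_le γ hγ with h1 | h1
  · exact hinv γ h1 τ
  · have := hinv (-γ) h1 τ
    rwa [ModularGroup.SL_neg_smul] at this

/-- **(1), for a model**: a holomorphic `Γ`-invariant function on `ℍ` with a `q_h`-Laurent
expansion at every cusp lies in the function field. -/
theorem hol_invariant_mem (g : ℍ → ℂ) (hg : MDiff g)
    (hinv : ∀ γ ∈ Γ, ∀ τ, g (γ • τ) = g τ)
    (hL : ∀ σ : SL(2, ℤ), IsQLaurentable h (fun τ => g (σ • τ))) :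
    ∃ z : ↥(laurentBaseChange ℂ F₀), M.fn z = tdmOfHol ⟨g, hg⟩ := by
  obtain ⟨y, hy⟩ := tgd_hol_mem_range M.G g hg
    (fun γ hγ τ => M.apply_smul_of_rep_eq_one hinv (MonoidHom.mem_ker.mp hγ) τ) hL
  rw [← hy]
  apply M.exists_fn_eq_of_inv
  rw [hy]
  intro γ
  rw [tdmSL_ofHol]
  congr 1
  apply Subtype.ext
  funext τ
  exact hinv γ γ.2 τ

end TgdModel

end Model

end Fermat.Agent.T1G
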