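/-
T1G-AN (C) AN-DICT (helper3), part 8: **`TgdModel.automorphic_mem`** — the quotient of two modular
forms of the same weight for `Γ` lies in the function field of `Γ \ ℍ*`.  Port of helper4's
`Lib/T1/Dict/AutoForm.lean` with `Γ₀(N) ↦ Γ`.
-/
import Mathlib
import Fermat.Agent.Lib.T1G.Dict.AutoHol

set_option autoImplicit false
set_option linter.unusedSectionVars false
set_option linter.style.haveILetI false
set_option linter.unusedVariables false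

namespace Fermat.Agent.T1G

open Fermat.Agent.S24Lib Fermat.Agent.T1 ModularCurve
open UpperHalfPlane Matrix MatrixGroups CongruenceSubgroup ModularForm
open scoped Manifold
open Fermat.Agent.ES (IsQLaurentable qLaurent IsMeroAtImInfty)

local notation "Δ" => ModularForm.discriminant

/-- `f` behaves like a modular form of weight `w` for `Γ`: holomorphic, automorphic of weight
`w`, and all its slashes are bounded at `i∞` -/
structure TgdWt (Γ : Subgroup SL(2, ℤ)) (w : ℤ) (f : ℍ → ℂ) : Prop where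
  mdiff : MDiff f
  smul : ∀ γ ∈ Γ, ∀ τ : ℍ, f (γ • τ) = denom γ τ ^ w * f τ
  bdd : ∀ σ : SL(2, ℤ), IsBoundedAtImInfty (fun τ : ℍ => f (σ • τ) * denom σ τ ^ (-w))

section Wt

variable {Γ : Subgroup SL(2, ℤ)}

theorem TgdWt.of_eq {w w' : ℤ} {f : ℍ → ℂ} (hf : TgdWt Γ w f) (h : w = w') : TgdWt Γ w' f := by
  subst h; exact hf

theorem TgdWt.mul {w₁ w₂ : ℤ} {f g : ℍ → ℂ} (hf : TgdWt Γ w₁ f) (hg : TgdWt Γ w₂ g) :
    TgdWt Γ (w₁ + w₂) (f * g) where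
  mdiff := hf.mdiff.mul hg.mdiff
  smul γ hγ τ := by
    rw [Pi.mul_apply, Pi.mul_apply, hf.smul γ hγ, hg.smul γ hγ, zpow_add₀ (denom_ne_zero γ τ)]
    ring
  bdd σ := by
    have h := (hf.bdd σ).mul (hg.bdd σ)
    refine Fermat.Agent.ES.isBoundedAtImInfty_congr h (fun τ => ?_)
    simp only [Pi.mul_apply]
    rw [neg_add, zpow_add₀ (denom_ne_zero σ τ)]
    ring

theorem TgdWt.one : TgdWt Γ 0 (1 : ℍ → ℂ) where
  mdiff := mdifferentiable_const
  smul γ hγ τ := by simp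
  bdd σ := by
    have h : IsBoundedAtImInfty (fun _ : ℍ => (1 : ℂ)) := Filter.const_boundedAtFilter _ 1
    refine Fermat.Agent.ES.isBoundedAtImInfty_congr h (fun τ => ?_)
    simp

theorem TgdWt.pow {w : ℤ} {f : ℍ → ℂ} (hf : TgdWt Γ w f) (n : ℕ) :
    TgdWt Γ (n * w) (f ^ n) := by
  induction n with
  | zero =>
    rw [pow_zero]
    exact TgdWt.one.of_eq (by simp)
  | succ n ih =>
    rw [pow_succ]
    exact (ih.mul hf).of_eq (by push_cast; ring)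

/-- modular forms for `Γ` -/
theorem TgdWt.of_modularForm [Γ.FiniteIndex] {k : ℤ} (A : ModularForm Γ k) : TgdWt Γ k A where
  mdiff := A.holo'
  smul γ hγ τ := SlashInvariantForm.slash_action_eqn_SL'' A hγ τ
  bdd σ := by
    have h := ModularFormClass.bdd_at_infty_slash A σ
    refine Fermat.Agent.ES.isBoundedAtImInfty_congr h (fun τ => ?_)
    rw [ModularForm.SL_slash_apply]

/-- a function invariant under `Γ` is `h`-periodic at every cusp -/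
theorem tgd_periodic_of_invariant {h : ℕ} (hgrp : TgnGroup Γ h) {u : ℍ → ℂ}
    (hu : ∀ γ ∈ Γ, ∀ τ : ℍ, u (γ • τ) = u τ)
    (σ : SL(2, ℤ)) (τ : ℍ) : u (σ • ((h : ℝ) +ᵥ τ)) = u (σ • τ) := by
  have hT : ((h : ℝ) +ᵥ τ : ℍ) = (ModularGroup.T ^ (h : ℤ) : SL(2, ℤ)) • τ := by
    rw [UpperHalfPlane.modular_T_zpow_smul]
    simp
  have hmem : σ * ModularGroup.T ^ (h : ℤ) * σ⁻¹ ∈ Γ := by
    have := hgrp.conj_mem σ⁻¹ 1
    rwa [mul_one, inv_inv] at this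
  have h2 := hu _ hmem (σ • τ)
  rw [← h2, hT, ← mul_smul, ← mul_smul]
  congr 2
  group

end Wt

section Model

variable {Γ : Subgroup SL(2, ℤ)} {h : ℕ} [NeZero h] {F₀ : IntermediateField ℚ (LaurentSeries ℚ)}
  (M : TgdModel ℂ Γ h F₀)

namespace TgdModel

/-- **weight `12 (a - b)` forms give modular functions**: `f Δ^b / Δ^a` is in the function field -/
theorem wt_mem {a b : ℕ} {f : ℍ → ℂ} (hf : TgdWt Γ (12 * ((a : ℤ) - b)) f) :
    ∃ hu : MDiff (fun τ : ℍ => f τ * Δ τ ^ b / Δ τ ^ a),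
      ∃ z : ↥(laurentBaseChange ℂ F₀), M.fn z
        = tdmOfHol ⟨fun τ : ℍ => f τ * Δ τ ^ b / Δ τ ^ a, hu⟩ := by
  have hu : MDiff (fun τ : ℍ => f τ * Δ τ ^ b / Δ τ ^ a) :=
    (hf.mdiff.mul (mdiff_discriminant.pow b)).div (mdiff_discriminant.pow a)
      (fun τ => pow_ne_zero _ (discriminant_ne_zero τ))
  refine ⟨hu, ?_⟩
  -- the transformation law under all of `SL(2, ℤ)`
  have hkey : ∀ (σ : SL(2, ℤ)) (τ : ℍ),
      f (σ • τ) * Δ (σ • τ) ^ b / Δ (σ • τ) ^ a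
        = f (σ • τ) * denom σ τ ^ (-(12 * ((a : ℤ) - b))) * Δ τ ^ b / Δ τ ^ a := by
    intro σ τ
    have hd : denom σ τ ≠ 0 := denom_ne_zero σ τ
    have hΔ := discriminant_ne_zero τ
    rw [discriminant_smul, mul_pow, mul_pow, ← zpow_natCast (denom σ τ ^ (12 : ℤ)) b,
      ← zpow_natCast (denom σ τ ^ (12 : ℤ)) a, ← _root_.zpow_mul, ← _root_.zpow_mul]
    have h1 : denom σ τ ^ (-(12 * ((a : ℤ) - b)))
        = denom σ τ ^ ((12 : ℤ) * b) / denom σ τ ^ ((12 : ℤ) * a) := by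
      rw [← zpow_sub₀ hd]
      congr 1
      ring
    rw [h1]
    have h2 : denom σ τ ^ ((12 : ℤ) * a) ≠ 0 := zpow_ne_zero _ hd
    have h3 : Δ τ ^ a ≠ 0 := pow_ne_zero _ hΔ
    field_simp
  -- invariance under `Γ`
  have hinv : ∀ γ ∈ Γ, ∀ τ : ℍ,
      f (γ • τ) * Δ (γ • τ) ^ b / Δ (γ • τ) ^ a = f τ * Δ τ ^ b / Δ τ ^ a := by
    intro γ hγ τ
    rw [hkey, hf.smul γ hγ]
    have hd : denom γ τ ≠ 0 := denom_ne_zero γ τ
    congr 2
    rw [mul_comm (denom γ τ ^ _), mul_assoc, ← zpow_add₀ hd, add_neg_cancel, zpow_zero, mul_one]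
  refine M.hol_invariant_mem _ hu hinv (fun σ => ?_)
  refine ⟨hu.comp (mdifferentiable_smul (tdm_det_SL_pos σ)), fun τ => ?_, ?_⟩
  · exact tgd_periodic_of_invariant M.grp (u := fun τ : ℍ => f τ * Δ τ ^ b / Δ τ ^ a) hinv σ τ
  · refine ⟨a, ?_⟩
    have h := (hf.bdd σ).mul (Fermat.Agent.ES.isBoundedAtImInfty_discriminant_pow b)
    refine Fermat.Agent.ES.isBoundedAtImInfty_congr h (fun τ => ?_)
    simp only [Pi.mul_apply]
    rw [hkey]
    have h3 : Δ τ ^ a ≠ 0 := pow_ne_zero _ (discriminant_ne_zero τ)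
    field_simp

/-- **(2)**: the quotient of two modular forms of the same weight for `Γ` lies in the function
field of `Γ \ ℍ*`. -/
theorem automorphic_mem [Γ.FiniteIndex] (k : ℤ) (A B : ModularForm Γ k) (hB : B ≠ 0) :
    ∃ z : ↥(laurentBaseChange ℂ F₀), M.fn z
      = tdmOfHol ⟨A, A.holo'⟩ / tdmOfHol ⟨B, B.holo'⟩ := by
  set a : ℕ := k.toNat with ha
  set b : ℕ := (-k).toNat with hb
  have hk : k = (a : ℤ) - b := by omega
  have hA := TgdWt.of_modularForm A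
  have hBw := TgdWt.of_modularForm B
  have hf₁ : TgdWt Γ (12 * ((a : ℤ) - b)) ((A : ℍ → ℂ) * (B : ℍ → ℂ) ^ 11) :=
    (hA.mul (hBw.pow 11)).of_eq (by rw [← hk]; push_cast; ring)
  have hf₂ : TgdWt Γ (12 * ((a : ℤ) - b)) ((B : ℍ → ℂ) ^ 12) :=
    (hBw.pow 12).of_eq (by rw [← hk]; push_cast; ring)
  obtain ⟨hu₁, y₁, hy₁⟩ := M.wt_mem hf₁
  obtain ⟨hu₂, y₂, hy₂⟩ := M.wt_mem hf₂
  refine ⟨y₁ / y₂, ?_⟩
  rw [map_div₀, hy₁, hy₂]
  -- `B` is not the zero function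
  have hB0 : (⟨B, B.holo'⟩ : holH) ≠ 0 := by
    intro h
    apply hB
    ext τ
    have := congrArg (fun x : holH => (x : ℍ → ℂ) τ) h
    exact this
  obtain ⟨τ₀, hτ₀⟩ : ∃ τ₀ : ℍ, B τ₀ ≠ 0 := by
    by_contra hcon
    push Not at hcon
    apply hB
    ext τ
    exact hcon τ
  have hu₂0 : (⟨fun τ : ℍ => ((B : ℍ → ℂ) ^ 12) τ * Δ τ ^ b / Δ τ ^ a, hu₂⟩ : holH) ≠ 0 := by
    intro h
    have h1 := congrArg (fun x : holH => (x : ℍ → ℂ) τ₀) h
    have h2 : ((B : ℍ → ℂ) ^ 12) τ₀ * Δ τ₀ ^ b / Δ τ₀ ^ a ≠ 0 := by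
      apply div_ne_zero
      · apply mul_ne_zero
        · rw [Pi.pow_apply]
          exact pow_ne_zero _ hτ₀
        · exact pow_ne_zero _ (discriminant_ne_zero τ₀)
      · exact pow_ne_zero _ (discriminant_ne_zero τ₀)
    exact h2 h1
  have hne₁ : tdmOfHol (⟨B, B.holo'⟩ : holH) ≠ 0 :=
    (map_ne_zero_iff _ tdmOfHol_injective).mpr hB0
  have hne₂ : tdmOfHol
      (⟨fun τ : ℍ => ((B : ℍ → ℂ) ^ 12) τ * Δ τ ^ b / Δ τ ^ a, hu₂⟩ : holH) ≠ 0 :=
    (map_ne_zero_iff _ tdmOfHol_injective).mpr hu₂0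
  rw [div_eq_div_iff hne₂ hne₁, ← map_mul, ← map_mul]
  congr 1
  apply Subtype.ext
  funext τ
  show (((A : ℍ → ℂ) * (B : ℍ → ℂ) ^ 11) τ * Δ τ ^ b / Δ τ ^ a) * B τ
    = A τ * (((B : ℍ → ℂ) ^ 12) τ * Δ τ ^ b / Δ τ ^ a)
  simp only [Pi.mul_apply, Pi.pow_apply]
  ring

end TgdModel

end Model

end Fermat.Agent.T1G
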