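/-
T1G-AN (C) AN-DICT (helper3), part 9: **`TgdModel.root_mem`** — a `Γ`-invariant meromorphic function
`g` on `ℍ` with `g ^ m` in the function field of `Γ \ ℍ*` lies in the function field; and the
assembled dictionary over `ℂ`, `TgdModel.dictC : TgdDictC Γ h F₀`.  Port of helper4's
`Lib/T1/Dict/{AutoRoot,AutoC}.lean` with `Γ₀(N) ↦ Γ`.
-/
import Mathlib
import Fermat.Agent.Lib.T1G.Dict.AutoForm
import Fermat.Agent.Lib.T1G.Mono.PsiC

set_option autoImplicit false
set_option linter.unusedSectionVars false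
set_option linter.style.haveILetI false
set_option linter.unusedVariables false

namespace Fermat.Agent.T1G

open Fermat.Agent.S24Lib Fermat.Agent.T1 ModularCurve
open UpperHalfPlane Matrix MatrixGroups CongruenceSubgroup ModularForm
open scoped Manifold
open Fermat.Agent.ES (IsQLaurentable qLaurent IsMeroAtImInfty)

local notation "Δ" => ModularForm.discriminant

variable {Γ : Subgroup SL(2, ℤ)} {h : ℕ} [NeZero h] {F₀ : IntermediateField ℚ (LaurentSeries ℚ)}
  (M : TgdModel ℂ Γ h F₀)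

namespace TgdModel

/-- **(3)**: a `Γ`-invariant meromorphic function on `ℍ` an `m`-th power of which is in the
function field of `Γ \ ℍ*` is itself in the function field. -/
theorem root_mem (g : tdmMer) (hg : tdmIsInv Γ g) (m : ℕ) (hm : 0 < m)
    (y : ↥(laurentBaseChange ℂ F₀)) (hy : M.fn y = g ^ m) :
    ∃ x : ↥(laurentBaseChange ℂ F₀), M.fn x = g := by
  obtain ⟨a, b, hb0, hbinv, hyab⟩ := tdd_exists_invariant_denominator (L := TgxField M.G)
    (tgxAct M.G) (tgx_finite_range_act M.G) (M.toF y)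
  set A : holH := tgxRingToHol M.G a with hA
  set B : holH := tgxRingToHol M.G b with hB
  have hB0 : B ≠ 0 := fun h0 => hb0 (tgxRingToHol_injective M.G (h0.trans (map_zero _).symm))
  have hBne : tdmOfHol B ≠ 0 := (map_ne_zero_iff _ tdmOfHol_injective).mpr hB0
  have hpow : g ^ m = tdmOfHol A / tdmOfHol B := by
    rw [← hy, fn_apply, hyab, map_div₀, tgxToMer_algebraMap, tgxToMer_algebraMap]
  obtain ⟨G, hG⟩ := tdm_exists_hol_of_pow m hm g A B hB0 hpow
  -- `B` is invariant under `SL(2, ℤ)`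
  have hBinv : ∀ (γ : SL(2, ℤ)) (τ : ℍ), (B : ℍ → ℂ) (γ • τ) = (B : ℍ → ℂ) τ := by
    intro γ τ
    have h1 : (tgxAct M.G γ⁻¹ b : ℍ → ℂ) τ = (b : ℍ → ℂ) τ := by rw [hbinv]
    rw [tgxAct_apply_apply, inv_inv] at h1
    exact h1
  have hBSL : ∀ γ : SL(2, ℤ), tdmHolSL γ B = B := by
    intro γ
    apply Subtype.ext
    funext τ
    exact hBinv γ τ
  -- `G` is invariant under `Γ`
  have hGeq : tdmOfHol G = g * tdmOfHol B := by
    rw [hG, div_mul_cancel₀ _ hBne]
  have hGinv : ∀ γ ∈ Γ, ∀ τ : ℍ, (G : ℍ → ℂ) (γ • τ) = (G : ℍ → ℂ) τ := by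
    intro γ hγ τ
    have h1 : tdmOfHol (tdmHolSL γ G) = tdmOfHol G := by
      rw [← tdmSL_ofHol, hGeq, map_mul, hg ⟨γ, hγ⟩, tdmSL_ofHol, hBSL]
    have h2 := tdmOfHol_injective h1
    have := congrArg (fun x : holH => (x : ℍ → ℂ) τ) h2
    exact this
  -- `G ^ m = A * B ^ (m - 1)`
  obtain ⟨k, rfl⟩ : ∃ k, m = k + 1 := ⟨m - 1, by omega⟩
  have hGpow : G ^ (k + 1) = A * B ^ k := by
    apply tdmOfHol_injective
    rw [map_pow, hGeq, mul_pow, hpow, map_mul, map_pow, pow_succ]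
    field_simp
  have hGpow' : ∀ τ : ℍ, (G : ℍ → ℂ) τ ^ (k + 1) = ((a * b ^ k : tgxRing M.G) : ℍ → ℂ) τ := by
    intro τ
    have := congrArg (fun x : holH => (x : ℍ → ℂ) τ) hGpow
    exact this
  -- `G` has a Laurent expansion at every cusp
  have hL : ∀ σ : SL(2, ℤ), IsQLaurentable h (fun τ => (G : ℍ → ℂ) (σ • τ)) := by
    intro σ
    have hG2 : MDiff (G : ℍ → ℂ) := G.2
    refine ⟨hG2.comp (mdifferentiable_smul (tdm_det_SL_pos σ)), fun τ => ?_, ?_⟩
    · exact tgd_periodic_of_invariant M.grp (u := (G : ℍ → ℂ)) hGinv σ τ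
    · have hc : ((a * b ^ k : tgxRing M.G) : ℍ → ℂ) ∈ tddW h :=
        tgxRing_le_tddW M.G (a * b ^ k : tgxRing M.G).2
      obtain ⟨n, hn⟩ := (hc σ).mero
      refine ⟨n, ?_⟩
      apply tdd_isBoundedAtImInfty_of_pow (Nat.succ_pos k)
      have h1 := hn.mul (Fermat.Agent.ES.isBoundedAtImInfty_discriminant_pow (n * k))
      refine Fermat.Agent.ES.isBoundedAtImInfty_congr h1 (fun τ => ?_)
      simp only [Pi.mul_apply]
      rw [mul_pow, hGpow', mul_assoc, ← pow_mul, ← pow_add]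
      congr 2
      rw [Nat.succ_eq_add_one]
      ring
  obtain ⟨x, hx⟩ := M.hol_invariant_mem (G : ℍ → ℂ) G.2 hGinv hL
  -- `B` lies in the function field
  obtain ⟨xb, hxb⟩ : ∃ xb : ↥(laurentBaseChange ℂ F₀), M.fn xb = tdmOfHol B := by
    have h1 := M.exists_fn_eq_of_inv (algebraMap (tgxRing M.G) (TgxField M.G) b) (by
      intro γ
      rw [tgxToMer_algebraMap, tdmSL_ofHol, hBSL])
    rw [tgxToMer_algebraMap] at h1
    exact h1
  refine ⟨x / xb, ?_⟩
  rw [map_div₀, hx, hxb, hG]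

/-- **THE ANALYTIC DICTIONARY OVER `ℂ`** for the function field of `Γ \ ℍ*` -/
noncomputable def dictC [Γ.FiniteIndex] : TgdDictC Γ h F₀ where
  toTgdDict := M.dict
  automorphic := fun k A B hB => M.automorphic_mem k A B hB
  root_mem := fun g m hm hg hz => by
    obtain ⟨z, hz⟩ := hz
    exact M.root_mem g hg m (Nat.pos_of_ne_zero hm) z hz

@[simp]
theorem dictC_toTgdDict [Γ.FiniteIndex] : M.dictC.toTgdDict = M.dict := rfl

end TgdModel

end Fermat.Agent.T1G
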