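/-
T1G-AN (L2) (helper3): complex conjugation and open stabilisers for the analytic models `TgdModel`.
(K-conj) complex conjugation on the function field `laurentBaseChange ℚ̄ F₀` is
`y ↦ conj ∘ y ∘ (τ ↦ -conj τ)` in the analytic model (`TgdModel.fn_conj`), and every element of
`laurentBaseChange ℚ̄ F₀` is fixed by the absolute Galois group of a number field
(`tgd_exists_finite_fixing`).  Generic version of `Lib/T1/Dict/ConjFix.lean`.
-/
import Mathlib
import Fermat.Agent.Lib.T1G.Dict.Main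
import Fermat.Agent.Lib.T1.Dict.ConjFix

set_option autoImplicit false
set_option linter.unusedSectionVars false
set_option linter.style.haveILetI false
set_option linter.unusedVariables false

namespace Fermat.Agent.T1G

open Fermat.Agent.S24Lib Fermat.Agent.T1 ModularCurve
open UpperHalfPlane Matrix MatrixGroups CongruenceSubgroup
open scoped ComplexConjugate
open Fermat.Agent.ES (epsGL cj cj_apply cj_cj slash_epsGL_eq_cj coe_epsGL_smul IsQLaurentable
  qLaurent qH)
attribute [local instance] KMod.charZero_k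

local notation "Kbar" => AlgebraicClosure ℚ
local notation "GQ" => (AlgebraicClosure ℚ ≃ₐ[ℚ] AlgebraicClosure ℚ)

section ToMer

variable {𝕜 : Type} [Field 𝕜] [IsAlgClosed 𝕜] [Algebra 𝕜 ℂ] {h : ℕ} [NeZero h]
  (G : TgxGens 𝕜 h)

/-- two modular functions whose `q`-expansions are complex conjugate are conjugate as meromorphic
functions -/
theorem tgd_toMer_of_fieldQL (Y Y' : TgxField G)
    (hq : tgxFieldQL G Y' = coeffMap (starRingEnd ℂ) (tgxFieldQL G Y)) :
    tgxToMer G Y' = tdmConj (tgxToMer G Y) := by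
  obtain ⟨a, b, hb, rfl⟩ := IsFractionRing.div_surjective (A := tgxRing G) Y
  obtain ⟨a', b', hb', rfl⟩ := IsFractionRing.div_surjective (A := tgxRing G) Y'
  have hb0 : b ≠ 0 := nonZeroDivisors.ne_zero hb
  have hb0' : b' ≠ 0 := nonZeroDivisors.ne_zero hb'
  have hqa := (tgxRing_props G a.2).1
  have hqb := (tgxRing_props G b.2).1
  have hqa' := (tgxRing_props G a'.2).1
  have hqb' := (tgxRing_props G b'.2).1
  rw [map_div₀, map_div₀, map_div₀, tgxFieldQL_algebraMap, tgxFieldQL_algebraMap,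
    tgxFieldQL_algebraMap, tgxFieldQL_algebraMap] at hq
  have hnb' : tgxRingQL G b' ≠ 0 := (tgxRingQL_eq_zero_iff G).not.mpr hb0'
  have hnb : coeffMap (starRingEnd ℂ) (tgxRingQL G b) ≠ 0 := by
    rw [Ne, map_eq_zero_iff _ (coeffMap (starRingEnd ℂ)).injective]
    exact (tgxRingQL_eq_zero_iff G).not.mpr hb0
  rw [div_eq_div_iff hnb' hnb] at hq
  rw [tgxRingQL_apply, tgxRingQL_apply, tgxRingQL_apply, tgxRingQL_apply,
    ← (tdd_cf_qLaurent_cj hqa).2, ← (tdd_cf_qLaurent_cj hqb).2,
    ← Fermat.Agent.ES.qLaurent_mul hqa' (tdd_cf_qLaurent_cj hqb).1,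
    ← Fermat.Agent.ES.qLaurent_mul (tdd_cf_qLaurent_cj hqa).1 hqb'] at hq
  have hfun : (fun z => (a' : ℍ → ℂ) z * cj (b : ℍ → ℂ) z)
      = fun z => cj (a : ℍ → ℂ) z * (b' : ℍ → ℂ) z := by
    have h1 := hqa'.mul (tdd_cf_qLaurent_cj hqb).1
    have h2 := (tdd_cf_qLaurent_cj hqa).1.mul hqb'
    have h3 := (Fermat.Agent.ES.qLaurent_eq_zero_iff (h1.sub h2)).mp (by
      rw [Fermat.Agent.ES.qLaurent_sub h1 h2, hq, sub_self])
    funext z
    have := congrFun h3 z
    exact sub_eq_zero.mp this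
  rw [map_div₀, map_div₀, map_div₀, tgxToMer_algebraMap, tgxToMer_algebraMap,
    tgxToMer_algebraMap, tgxToMer_algebraMap, tdmConj_ofHol, tdmConj_ofHol]
  have hn1 : tdmOfHol (tgxRingToHol G b') ≠ 0 := by
    rw [Ne, map_eq_zero_iff _ tdmOfHol_injective, map_eq_zero_iff _ (tgxRingToHol_injective G)]
    exact hb0'
  have hn2 : tdmOfHol (tdmHolConj (tgxRingToHol G b)) ≠ 0 := by
    have hinj : Function.Injective tdmHolConj :=
      Function.LeftInverse.injective (g := tdmHolConj) tdmHolConj_conj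
    rw [Ne, map_eq_zero_iff _ tdmOfHol_injective, map_eq_zero_iff _ hinj,
      map_eq_zero_iff _ (tgxRingToHol_injective G)]
    exact hb0
  rw [div_eq_div_iff hn1 hn2, ← map_mul, ← map_mul]
  congr 1
  apply Subtype.ext
  funext z
  exact congrFun hfun z

end ToMer

section Conj

variable {Γ : Subgroup SL(2, ℤ)} {h : ℕ} [NeZero h] {F₀ : IntermediateField ℚ (LaurentSeries ℚ)}

/-- **(K-conj)** complex conjugation on the function field `laurentBaseChange ℚ̄ F₀` is
`y ↦ conj ∘ y ∘ (τ ↦ -conj τ)` in an analytic model -/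
theorem TgdModel.toMer_conj (Mo : TgdModel Kbar Γ h F₀) (y : ↥(laurentBaseChange Kbar F₀)) :
    tgxToMer Mo.G (Mo.toF (arithmeticRingAut F₀ complexConjugation y))
      = tdmConj (tgxToMer Mo.G (Mo.toF y)) := by
  apply tgd_toMer_of_fieldQL
  rw [Mo.ql_toF, Mo.ql_toF, coe_arithmeticRingAut_apply,
    coeffMap_coeffMap, coeffMap_qExpand, coeffMap_coeffMap, tdd_cf_iota_conj]

/-- **(K-conj)**, `hconj` of `TgdDescent.gal_conj` -/
theorem TgdModel.fn_conj (Mo : TgdModel Kbar Γ h F₀) (y : ↥(laurentBaseChange Kbar F₀)) :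
    Mo.dict.fn (arithmeticRingAut F₀ complexConjugation y) = tdmConj (Mo.dict.fn y) := by
  rw [TgdModel.dict_fn, TgdModel.fn_apply, TgdModel.fn_apply]
  exact Mo.toMer_conj y

end Conj

/-- **(open stabilisers)** every element of `laurentBaseChange ℚ̄ F₀` is fixed by the Galois group
of a number field (`hfix` of `TgdDescent.gal_cont`) -/
theorem tgd_exists_finite_fixing (F₀ : IntermediateField ℚ (LaurentSeries ℚ))
    (y : ↥(laurentBaseChange Kbar F₀)) :
    ∃ L : IntermediateField ℚ Kbar, FiniteDimensional ℚ L ∧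
      ∀ σ : GQ, (∀ x ∈ L, σ x = x) → arithmeticRingAut F₀ σ y = y := by
  classical
  let P : Subfield (LaurentSeries Kbar) :=
    { carrier := {x | ∃ L : IntermediateField ℚ Kbar, FiniteDimensional ℚ L ∧
        ∀ σ : GQ, (∀ a ∈ L, σ a = a) → coeffMap (σ : Kbar →+* Kbar) x = x}
      mul_mem' := by
        rintro x x' ⟨L, hL, h⟩ ⟨L', hL', h'⟩
        haveI := hL; haveI := hL'
        refine ⟨L ⊔ L', inferInstance, fun σ hσ => ?_⟩
        rw [map_mul, h σ (fun a ha => hσ a ((le_sup_left : L ≤ L ⊔ L') ha)),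
          h' σ (fun a ha => hσ a ((le_sup_right : L' ≤ L ⊔ L') ha))]
      one_mem' := ⟨⊥, inferInstance, fun σ _ => map_one _⟩
      add_mem' := by
        rintro x x' ⟨L, hL, h⟩ ⟨L', hL', h'⟩
        haveI := hL; haveI := hL'
        refine ⟨L ⊔ L', inferInstance, fun σ hσ => ?_⟩
        rw [map_add, h σ (fun a ha => hσ a ((le_sup_left : L ≤ L ⊔ L') ha)),
          h' σ (fun a ha => hσ a ((le_sup_right : L' ≤ L ⊔ L') ha))]
      zero_mem' := ⟨⊥, inferInstance, fun σ _ => map_zero _⟩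
      neg_mem' := by
        rintro x ⟨L, hL, h⟩
        exact ⟨L, hL, fun σ hσ => by rw [map_neg, h σ hσ]⟩
      inv_mem' := by
        rintro x ⟨L, hL, h⟩
        exact ⟨L, hL, fun σ hσ => by rw [map_inv₀, h σ hσ]⟩ }
  have hmem : (y : LaurentSeries Kbar) ∈ P := by
    have hy := mem_laurentBaseChange_iff.mp y.2
    have hle : Subfield.closure (Set.range (algebraMap Kbar (LaurentSeries Kbar)) ∪
        (⇑(coeffEmb Kbar) '' (F₀ : Set (LaurentSeries ℚ)))) ≤ P := by
      rw [Subfield.closure_le]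
      rintro x (⟨c, rfl⟩ | ⟨x₀, -, rfl⟩)
      · haveI : Algebra.IsAlgebraic ℚ Kbar := AlgebraicClosure.isAlgebraic ℚ
        have hc : IsIntegral ℚ c := (Algebra.IsAlgebraic.isAlgebraic c).isIntegral
        refine ⟨IntermediateField.adjoin ℚ {c}, IntermediateField.adjoin.finiteDimensional hc,
          fun σ hσ => ?_⟩
        rw [coeffMap_algebraMap]
        congr 1
        exact hσ c (IntermediateField.mem_adjoin_simple_self ℚ c)
      · exact ⟨⊥, inferInstance, fun σ _ => coeffMap_coeffEmb σ _⟩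
    exact hle hy
  obtain ⟨L, hL, h⟩ := hmem
  exact ⟨L, hL, fun σ hσ => Subtype.ext (h σ hσ)⟩

end Fermat.Agent.T1G
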