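/-
T1G-AN (C), descent, part 1 (generic version of `Lib/T1/Dict/DescentRR.lean`): for a function field
`F = laurentBaseChange 𝕜 F₀` with a generator fixed by the coefficient automorphisms and a nonzero
`z ∈ F` there is a nonzero finite dimensional space `V` of functions (a Riemann–Roch space) carried
into itself by `f ↦ σ(f)·t` for every coefficient automorphism `σ` and every `t` with
`σ(z) = z·t^m`.
-/
import Mathlib
import Fermat.Prelude.Def_ModularCurve_ArithmeticGalois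
import Fermat.Agent.Lib.Curve.Riemann

set_option autoImplicit false
set_option linter.unusedSectionVars false
set_option linter.style.haveILetI false
set_option linter.unusedVariables false

namespace Fermat.Agent.T1G

open ModularCurve
open AlgebraicCurve Fermat.Agent.Curve Fermat.Agent.Curve.RRAux Fermat.Agent.Curve.PlaceAux
open IntermediateField

variable (𝕜 : Type) [Field 𝕜] [IsAlgClosed 𝕜] [CharZero 𝕜] [Algebra ℚ 𝕜]
  (F₀ : IntermediateField ℚ (LaurentSeries ℚ))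

/-- the action of `Aut(𝕜/ℚ)` on the function field `laurentBaseChange 𝕜 F₀` -/
noncomputable abbrev tgdGalF (σ : 𝕜 ≃ₐ[ℚ] 𝕜) : SemilinearAut 𝕜 ↥(laurentBaseChange 𝕜 F₀) :=
  arithmeticGalois F₀ σ

theorem coe_tgdGalF_smul (σ : 𝕜 ≃ₐ[ℚ] 𝕜) (f : ↥(laurentBaseChange 𝕜 F₀)) :
    ((tgdGalF 𝕜 F₀ σ • f : ↥(laurentBaseChange 𝕜 F₀)) : LaurentSeries 𝕜)
      = coeffMap (σ : 𝕜 →+* 𝕜) (f : LaurentSeries 𝕜) := rfl

/-- the elements with rational coefficients are fixed -/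
theorem tgdGalF_smul_coeffEmb (σ : 𝕜 ≃ₐ[ℚ] 𝕜) {x₀ : LaurentSeries ℚ} (hx₀ : x₀ ∈ F₀) :
    tgdGalF 𝕜 F₀ σ • (⟨coeffEmb 𝕜 x₀, coeffEmb_mem_laurentBaseChange 𝕜 hx₀⟩ :
        ↥(laurentBaseChange 𝕜 F₀))
      = ⟨coeffEmb 𝕜 x₀, coeffEmb_mem_laurentBaseChange 𝕜 hx₀⟩ := by
  apply Subtype.ext
  rw [coe_tgdGalF_smul, coeffMap_coeffEmb]

theorem ord_tgdGalF_smul (σ : 𝕜 ≃ₐ[ℚ] 𝕜) (v : Place 𝕜 ↥(laurentBaseChange 𝕜 F₀))
    (f : ↥(laurentBaseChange 𝕜 F₀)) :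
    v.ord (tgdGalF 𝕜 F₀ σ • f) = ((tgdGalF 𝕜 F₀ σ)⁻¹ • v).ord f := by
  have h := SemilinearAut.ord_smul (tgdGalF 𝕜 F₀ σ) ((tgdGalF 𝕜 F₀ σ)⁻¹ • v) f
  rwa [smul_inv_smul] at h

/-- **the stable Riemann–Roch space** -/
theorem tgd_exists_stable_space {x : ↥(laurentBaseChange 𝕜 F₀)}
    (hx : IsFunctionFieldGen 𝕜 ↥(laurentBaseChange 𝕜 F₀) x)
    (hfix : ∀ σ : 𝕜 ≃ₐ[ℚ] 𝕜, tgdGalF 𝕜 F₀ σ • x = x)
    (m : ℕ) (hm : m ≠ 0) (z : ↥(laurentBaseChange 𝕜 F₀)) (hz : z ≠ 0) :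
    ∃ V : Submodule 𝕜 ↥(laurentBaseChange 𝕜 F₀), FiniteDimensional 𝕜 V ∧ V ≠ ⊥ ∧
      ∀ (σ : 𝕜 ≃ₐ[ℚ] 𝕜) (t : ↥(laurentBaseChange 𝕜 F₀)), tgdGalF 𝕜 F₀ σ • z = z * t ^ m →
        ∀ f ∈ V, (tgdGalF 𝕜 F₀ σ • f) * t ∈ V := by
  obtain ⟨γ, hγ⟩ := exists_riemann_bound hx
  have hfin := hx.finite
  set n := Module.finrank 𝕜⟮x⟯ ↥(laurentBaseChange 𝕜 F₀) with hn
  have hnpos : 0 < n := Module.finrank_pos
  set B := poleDiv hx x with hB
  have hdegB : Divisor.degree B = n := degree_poleDiv_gen hx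
  set D' : Divisor 𝕜 ↥(laurentBaseChange 𝕜 F₀) :=
    (divOf hx z).mapRange (fun a => a / (m : ℤ)) (Int.zero_ediv _) with hD'
  have hD'v : ∀ v, D' v = v.ord z / (m : ℤ) := fun v => by
    rw [hD', Finsupp.mapRange_apply, divOf_apply hx hz]
  set l : ℕ := (γ - Divisor.degree D' + 1).toNat with hl
  set E : Divisor 𝕜 ↥(laurentBaseChange 𝕜 F₀) := D' + (l : ℤ) • B with hE
  have hEv : ∀ v, E v = v.ord z / (m : ℤ) + l * max 0 (-(v.ord x)) := fun v => by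
    rw [hE, Finsupp.add_apply, Finsupp.smul_apply, hD'v, hB, poleDiv_apply, smul_eq_mul]
  refine ⟨riemannRochSpace E, finiteDimensional_riemannRochSpace hx E, ?_, ?_⟩
  · intro hbot
    have h1 := hγ E
    rw [ell, hbot, finrank_bot] at h1
    have h2 : Divisor.degree E = Divisor.degree D' + l * n := by
      rw [hE, map_add, map_zsmul, hdegB, smul_eq_mul]
    have h3 : γ - Divisor.degree D' + 1 ≤ l := Int.self_le_toNat _
    have h4 : (l : ℤ) ≤ l * n := by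
      have : (1 : ℤ) ≤ n := by exact_mod_cast hnpos
      nlinarith [Int.natCast_nonneg l]
    rw [h2] at h1
    push_cast at h1
    omega
  · intro σ t ht f hf
    rw [mem_riemannRochSpace_iff] at hf ⊢
    intro v
    by_cases hf0 : f = 0
    · left
      rw [hf0, smul_zero, zero_mul]
    right
    have hgz0 : tgdGalF 𝕜 F₀ σ • z ≠ 0 := (smul_ne_zero_iff_ne _).mpr hz
    have ht0 : t ≠ 0 := by
      intro h0
      rw [h0, zero_pow hm, mul_zero] at ht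
      exact hgz0 ht
    have hgf0 : tgdGalF 𝕜 F₀ σ • f ≠ 0 := (smul_ne_zero_iff_ne _).mpr hf0
    rcases hf ((tgdGalF 𝕜 F₀ σ)⁻¹ • v) with h | h
    · exact absurd h hf0
    rw [Place.ord_mul v hgf0 ht0, ord_tgdGalF_smul]
    have h1 : ((tgdGalF 𝕜 F₀ σ)⁻¹ • v).ord x = v.ord x := by
      rw [← ord_tgdGalF_smul, hfix]
    have h2 : ((tgdGalF 𝕜 F₀ σ)⁻¹ • v).ord z = v.ord z + m * v.ord t := by
      rw [← ord_tgdGalF_smul, ht, Place.ord_mul v hz (pow_ne_zero m ht0), ← zpow_natCast,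
        Place.ord_zpow]
    rw [hEv] at h ⊢
    rw [h1, h2, Int.add_mul_ediv_left _ _ (by exact_mod_cast hm : (m : ℤ) ≠ 0)] at h
    linarith

end Fermat.Agent.T1G
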