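/-
T1G-AN (C), descent, part 2 (generic version of `Lib/T1/Dict/DescentSurj.lean`): for a field `F₀` of
Laurent series over `ℚ`, the base change `laurentBaseChange ℚ̄ F₀ → laurentBaseChange ℂ F₀`
(`tgdBc`), descent of `m`-th powers, and surjectivity modulo `m`-th powers on the Kummer groups.
-/
import Mathlib
import Fermat.Agent.Lib.T1G.Dict.DescentRR
import Fermat.Agent.Lib.T1G.Mono.PsiK
import Fermat.Agent.Lib.T1.Dict.DescentLin
import Fermat.Agent.Lib.T1.Dict.DescentAlg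
import Fermat.Agent.Lib.T1.Desc.PowDesc

set_option autoImplicit false
set_option linter.unusedSectionVars false
set_option linter.style.haveILetI false
set_option linter.unusedVariables false

namespace Fermat.Agent.T1G

open Fermat.Agent.S24Lib
open ModularCurve AlgebraicCurve Fermat.Agent.Curve
open Fermat.Agent.T1

local notation "Kbar" => AlgebraicClosure ℚ

variable (F₀ : IntermediateField ℚ (LaurentSeries ℚ))

/-! ### base change -/

/-- **base change of coefficients** `laurentBaseChange ℚ̄ F₀ → laurentBaseChange ℂ F₀` -/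
noncomputable def tgdBc : ↥(laurentBaseChange Kbar F₀) →+* ↥(laurentBaseChange ℂ F₀) where
  toFun y := ⟨coeffMap (algebraMap Kbar ℂ) (y : LaurentSeries Kbar),
    tdx_coeffMap_mem F₀ (algebraMap Kbar ℂ) y.2⟩
  map_one' := Subtype.ext (map_one (coeffMap (algebraMap Kbar ℂ)))
  map_mul' x y := Subtype.ext (map_mul (coeffMap (algebraMap Kbar ℂ)) _ _)
  map_zero' := Subtype.ext (map_zero (coeffMap (algebraMap Kbar ℂ)))
  map_add' x y := Subtype.ext (map_add (coeffMap (algebraMap Kbar ℂ)) _ _)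

theorem coe_tgdBc (y : ↥(laurentBaseChange Kbar F₀)) :
    ((tgdBc F₀ y : ↥(laurentBaseChange ℂ F₀)) : LaurentSeries ℂ)
      = coeffMap (algebraMap Kbar ℂ) (y : LaurentSeries Kbar) := rfl

theorem tgdBc_injective : Function.Injective (tgdBc F₀) := RingHom.injective _

/-- **`m`-th powers descend** -/
theorem tgd_pow_desc (m : ℕ) (hm : m ≠ 0) (y : ↥(laurentBaseChange Kbar F₀))
    (h : ∃ z : ↥(laurentBaseChange ℂ F₀), tgdBc F₀ y = z ^ m) :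
    ∃ t : ↥(laurentBaseChange Kbar F₀), y = t ^ m := by
  obtain ⟨z, hz⟩ := h
  have h1 : coeffMap (algebraMap Kbar ℂ) (y : LaurentSeries Kbar)
      = (z : LaurentSeries ℂ) ^ m := by
    rw [← coe_tgdBc, hz]
    push_cast
    rfl
  obtain ⟨t, ht, hyt⟩ := tdx_pow_desc F₀ (algebraMap Kbar ℂ) m hm z.2 h1
  refine ⟨⟨t, ht⟩, Subtype.ext ?_⟩
  push_cast
  exact hyt

/-! ### the Galois action on units -/

/-- the action of `Aut(ℂ/ℚ)` on the units of the function field -/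
noncomputable def tgdGalU (σ : ℂ ≃ₐ[ℚ] ℂ) :
    (↥(laurentBaseChange ℂ F₀))ˣ →* (↥(laurentBaseChange ℂ F₀))ˣ :=
  Units.map ((arithmeticRingAut F₀ σ :
    ↥(laurentBaseChange ℂ F₀) ≃+* ↥(laurentBaseChange ℂ F₀)) :
      ↥(laurentBaseChange ℂ F₀) →* ↥(laurentBaseChange ℂ F₀))

theorem coe_tgdGalU (σ : ℂ ≃ₐ[ℚ] ℂ) (z : (↥(laurentBaseChange ℂ F₀))ˣ) :
    ((tgdGalU F₀ σ z : (↥(laurentBaseChange ℂ F₀))ˣ) : ↥(laurentBaseChange ℂ F₀))
      = tgdGalF ℂ F₀ σ • (z : ↥(laurentBaseChange ℂ F₀)) := rfl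

theorem tgdGalU_mem {m : ℕ} (σ : ℂ ≃ₐ[ℚ] ℂ) {z : (↥(laurentBaseChange ℂ F₀))ˣ}
    (hz : z ∈ tgWsub ℂ F₀ m) : tgdGalU F₀ σ z ∈ tgWsub ℂ F₀ m := by
  rw [mem_tgWsub] at hz ⊢
  intro P
  rw [coe_tgdGalU, ord_tgdGalF_smul]
  exact hz _

/-! ### stability of `V · u` -/

theorem tgd_coeffMap_stable {m : ℕ} (hm : m ≠ 0) (z : ↥(laurentBaseChange ℂ F₀)) (hz : z ≠ 0)
    (u : LaurentSeries ℂ) (hu : u ^ m = (z : LaurentSeries ℂ))
    (V : Submodule ℂ ↥(laurentBaseChange ℂ F₀))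
    (hV : ∀ (σ : ℂ ≃ₐ[ℚ] ℂ) (t : ↥(laurentBaseChange ℂ F₀)), tgdGalF ℂ F₀ σ • z = z * t ^ m →
        ∀ f ∈ V, (tgdGalF ℂ F₀ σ • f) * t ∈ V)
    (σ : ℂ ≃ₐ[ℚ] ℂ) (t : ↥(laurentBaseChange ℂ F₀)) (ht : tgdGalF ℂ F₀ σ • z = z * t ^ m)
    (f : ↥(laurentBaseChange ℂ F₀)) (hf : f ∈ V) :
    ∃ (a : ℂ) (g : ↥(laurentBaseChange ℂ F₀)), g ∈ V ∧
      coeffMap (σ : ℂ →+* ℂ) ((f : LaurentSeries ℂ) * u)
        = HahnSeries.C a * ((g : LaurentSeries ℂ) * u) := by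
  have hz' : (z : LaurentSeries ℂ) ≠ 0 := fun h => hz (Subtype.ext h)
  have hu0 : u ≠ 0 := by
    rintro rfl
    rw [zero_pow hm] at hu
    exact hz' hu.symm
  have hgz0 : tgdGalF ℂ F₀ σ • z ≠ 0 := (smul_ne_zero_iff_ne _).mpr hz
  have ht0 : t ≠ 0 := by
    intro h0
    rw [h0, zero_pow hm, mul_zero] at ht
    exact hgz0 ht
  have ht' : (t : LaurentSeries ℂ) ≠ 0 := fun h => ht0 (Subtype.ext h)
  have hden : u * (t : LaurentSeries ℂ) ≠ 0 := mul_ne_zero hu0 ht'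
  have hpow : (coeffMap (σ : ℂ →+* ℂ) u / (u * (t : LaurentSeries ℂ))) ^ m = 1 := by
    rw [div_pow, ← map_pow, hu, mul_pow, hu]
    have h1 : coeffMap (σ : ℂ →+* ℂ) (z : LaurentSeries ℂ)
        = ((tgdGalF ℂ F₀ σ • z : ↥(laurentBaseChange ℂ F₀)) : LaurentSeries ℂ) := rfl
    rw [h1, ht]
    push_cast
    exact div_self (mul_ne_zero hz' (pow_ne_zero m ht'))
  obtain ⟨a, -, ha⟩ := tdx_pow_eq_one (RingHom.id ℂ) m hm _ hpow
  rw [RingHom.id_apply, div_eq_iff hden] at ha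
  refine ⟨a, (tgdGalF ℂ F₀ σ • f) * t, hV σ t ht f hf, ?_⟩
  rw [map_mul, ha]
  have h2 : coeffMap (σ : ℂ →+* ℂ) (f : LaurentSeries ℂ)
      = ((tgdGalF ℂ F₀ σ • f : ↥(laurentBaseChange ℂ F₀)) : LaurentSeries ℂ) := rfl
  rw [h2]
  push_cast
  ring

/-! ### the main theorem -/

/-- **surjectivity modulo `m`-th powers** of the base change on the Kummer groups; `x` is a
generator of the function field with rational coefficients and `hord` says that the `q`-orders of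
the elements of the Kummer group are divisible by `m` -/
theorem tgd_surj_core {x₀ : LaurentSeries ℚ} (hx₀ : x₀ ∈ F₀)
    (hx : IsFunctionFieldGen ℂ ↥(laurentBaseChange ℂ F₀)
      (⟨coeffEmb ℂ x₀, coeffEmb_mem_laurentBaseChange ℂ hx₀⟩ : ↥(laurentBaseChange ℂ F₀)))
    {m : ℕ} (hm : m ≠ 0)
    (hord : ∀ z : (↥(laurentBaseChange ℂ F₀))ˣ, z ∈ tgWsub ℂ F₀ m →
      ∃ n : ℤ, ((z : ↥(laurentBaseChange ℂ F₀)) : LaurentSeries ℂ).order = m * n)
    (hfin : Finite (tgWsub ℂ F₀ m ⧸ tgPowSub ℂ F₀ m))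
    (z : (↥(laurentBaseChange ℂ F₀))ˣ) (hz : z ∈ tgWsub ℂ F₀ m) :
    ∃ (y : ↥(laurentBaseChange Kbar F₀)) (t : ↥(laurentBaseChange ℂ F₀)), t ≠ 0 ∧
      tgdBc F₀ y = z * t ^ m := by
  classical
  set z₀ : ↥(laurentBaseChange ℂ F₀) := (z : ↥(laurentBaseChange ℂ F₀)) with hz₀
  have hz0 : z₀ ≠ 0 := z.ne_zero
  have hz' : (z₀ : LaurentSeries ℂ) ≠ 0 := fun h => hz0 (Subtype.ext h)
  -- the root
  obtain ⟨n, hn⟩ := hord z hz
  obtain ⟨u, hu⟩ := tdx_exists_pow_eq m hm (z₀ : LaurentSeries ℂ) hz' n hn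
  have hu0 : u ≠ 0 := by
    rintro rfl
    rw [zero_pow hm] at hu
    exact hz' hu.symm
  -- the space
  obtain ⟨V, hVfin, hVbot, hV⟩ := tgd_exists_stable_space ℂ F₀ hx
    (fun σ => tgdGalF_smul_coeffEmb ℂ F₀ σ hx₀) m hm z₀ hz0
  let φ : ↥V →ₗ[ℂ] LaurentSeries ℂ :=
    { toFun := fun f => ((f : ↥(laurentBaseChange ℂ F₀)) : LaurentSeries ℂ) * u
      map_add' := fun a b => by
        push_cast
        ring
      map_smul' := fun c a => by
        simp only [RingHom.id_apply]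
        rw [tdx_smul_eq, Submodule.coe_smul, Algebra.smul_def]
        push_cast
        rw [tdx_algebraMap_eq, mul_assoc] }
  have hφ : ∀ f : ↥V, φ f = ((f : ↥(laurentBaseChange ℂ F₀)) : LaurentSeries ℂ) * u :=
    fun _ => rfl
  set W : Submodule ℂ (LaurentSeries ℂ) := LinearMap.range φ with hW
  have hWfin : FiniteDimensional ℂ W := LinearMap.finiteDimensional_range φ
  have hWbot : W ≠ ⊥ := by
    obtain ⟨f, hf, hf0⟩ := (Submodule.ne_bot_iff _).mp hVbot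
    intro hbot
    have h1 : φ ⟨f, hf⟩ ∈ W := ⟨_, rfl⟩
    rw [hbot, Submodule.mem_bot, hφ] at h1
    rcases mul_eq_zero.mp h1 with h | h
    · exact hf0 (Subtype.ext h)
    · exact hu0 h
  obtain ⟨w, hwW, hw0, hwfix⟩ := tdd_exists_fixed_vector W hWbot
  obtain ⟨⟨f₀, hf₀V⟩, hf₀⟩ := hwW
  rw [hφ] at hf₀
  -- stabilising automorphisms fix `w`
  have hstab : ∀ (σ : ℂ ≃ₐ[ℚ] ℂ) (t : ↥(laurentBaseChange ℂ F₀)),
      tgdGalF ℂ F₀ σ • z₀ = z₀ * t ^ m → coeffMap (σ : ℂ →+* ℂ) w = w := by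
    intro σ t ht
    apply hwfix
    rintro w' ⟨⟨f, hf⟩, rfl⟩
    obtain ⟨a, g, hg, hag⟩ := tgd_coeffMap_stable F₀ hm z₀ hz0 u hu V hV σ t ht f hf
    rw [hφ, hag, ← tdx_smul_eq]
    exact W.smul_mem a ⟨⟨g, hg⟩, rfl⟩
  -- the coefficients of `w` lie in `ℚ̄`
  have hcoef : ∀ k : ℤ, w.coeff k ∈ (algebraMap Kbar ℂ).range := by
    intro k
    apply tdd_mem_range_of_finite_orbit (K := Kbar) (Ω := ℂ)
    let φQ : (ℂ ≃ₐ[Kbar] ℂ) → tgWsub ℂ F₀ m ⧸ tgPowSub ℂ F₀ m := fun τ =>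
      QuotientGroup.mk ⟨tgdGalU F₀ (τ.restrictScalars ℚ) z, tgdGalU_mem F₀ _ hz⟩
    have hkey : ∀ τ₁ τ₂ : ℂ ≃ₐ[Kbar] ℂ, φQ τ₁ = φQ τ₂ → τ₁ (w.coeff k) = τ₂ (w.coeff k) := by
      intro τ₁ τ₂ h
      rw [QuotientGroup.eq, mem_tgPowSub] at h
      obtain ⟨s, hs⟩ := h
      rw [Subgroup.coe_mul, Subgroup.coe_inv] at hs
      have hs1 : tgdGalU F₀ (τ₂.restrictScalars ℚ) z
          = tgdGalU F₀ (τ₁.restrictScalars ℚ) z * s ^ m := by
        rw [hs]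
        simp
      have hs2 : tgdGalF ℂ F₀ (τ₂.restrictScalars ℚ) • z₀
          = tgdGalF ℂ F₀ (τ₁.restrictScalars ℚ) • z₀ * (s : ↥(laurentBaseChange ℂ F₀)) ^ m := by
        have := congrArg (fun x : (↥(laurentBaseChange ℂ F₀))ˣ =>
          (x : ↥(laurentBaseChange ℂ F₀))) hs1
        simpa [coe_tgdGalU] using this
      set σ : ℂ ≃ₐ[ℚ] ℂ := (τ₁.restrictScalars ℚ)⁻¹ * τ₂.restrictScalars ℚ with hσ
      have h3 : tgdGalF ℂ F₀ σ • z₀
          = z₀ * ((tgdGalF ℂ F₀ (τ₁.restrictScalars ℚ))⁻¹ •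
              (s : ↥(laurentBaseChange ℂ F₀))) ^ m := by
        rw [hσ, tgdGalF, map_mul, map_inv, mul_smul, hs2, smul_mul', inv_smul_smul, smul_pow']
      have h4 := hstab σ _ h3
      have h5 : σ (w.coeff k) = w.coeff k := by
        have := congrArg (fun x : LaurentSeries ℂ => x.coeff k) h4
        simpa using this
      rw [hσ, AlgEquiv.mul_apply, AlgEquiv.aut_inv] at h5
      have h6 := congrArg (τ₁.restrictScalars ℚ) h5
      rw [AlgEquiv.apply_symm_apply] at h6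
      exact h6.symm
    let g : (tgWsub ℂ F₀ m ⧸ tgPowSub ℂ F₀ m) → ℂ := fun q =>
      if h : ∃ τ, φQ τ = q then (Classical.choose h) (w.coeff k) else 0
    have hsub : Set.range (fun τ : ℂ ≃ₐ[Kbar] ℂ => τ (w.coeff k)) ⊆ Set.range g := by
      rintro _ ⟨τ, rfl⟩
      refine ⟨φQ τ, ?_⟩
      have h : ∃ τ', φQ τ' = φQ τ := ⟨τ, rfl⟩
      simp only [g, dif_pos h]
      exact hkey _ _ (Classical.choose_spec h)
    exact (Set.finite_range g).subset hsub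
  -- conclusion
  have hwm : ∀ k : ℤ, (w ^ m).coeff k ∈ (algebraMap Kbar ℂ).range :=
    tdd_coeff_pow_mem _ w hcoef m
  obtain ⟨y', hy'⟩ := tdd_mem_range_coeffMap (algebraMap Kbar ℂ) (w ^ m) hwm
  have hwm_eq : w ^ m = ((z₀ * f₀ ^ m : ↥(laurentBaseChange ℂ F₀)) : LaurentSeries ℂ) := by
    rw [← hf₀, mul_pow, hu]
    push_cast
    ring
  have hy'mem : y' ∈ laurentBaseChange Kbar F₀ := by
    apply tdx_mem_of_coeffMap_mem F₀ (algebraMap Kbar ℂ)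
    rw [hy', hwm_eq]
    exact (z₀ * f₀ ^ m).2
  refine ⟨⟨y', hy'mem⟩, f₀, ?_, ?_⟩
  · rintro rfl
    apply hw0
    rw [← hf₀]
    simp
  · apply Subtype.ext
    rw [coe_tgdBc]
    show coeffMap (algebraMap Kbar ℂ) y' = _
    rw [hy', hwm_eq]

end Fermat.Agent.T1G
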