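/-
T1G-AN (C) AN-DICT (helper3), part 5: descent data `TgdDescent` between the dictionaries of two
compatible analytic models over `ℚ̄` and over `ℂ` (same generating system), and `j` as a generator of
the function field.  Generic version of `Lib/T1/Dict/{BaseChange,DescentSurj}.lean`.
-/
import Mathlib
import Fermat.Agent.Lib.T1G.Dict.DictBwd
import Fermat.Agent.Lib.T1G.Dict.DescentSurj
import Fermat.Agent.Lib.T1G.Mono.PsiK
import Fermat.Agent.Lib.S24.Count

set_option autoImplicit false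
set_option linter.unusedSectionVars false
set_option linter.style.haveILetI false
set_option linter.unusedVariables false

namespace Fermat.Agent.T1G

open Fermat.Agent.S24Lib Fermat.Agent.T1 ModularCurve
open UpperHalfPlane Matrix MatrixGroups CongruenceSubgroup WithZero ModularGroup
open AlgebraicCurve Fermat.Agent.Curve Fermat.Agent.Curve.GaloisAux Fermat.Agent.Curve.PlaceAux
attribute [local instance] KMod.charZero_k

local notation "Kbar" => AlgebraicClosure ℚ

section General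

variable {𝕜 : Type} [Field 𝕜] [IsAlgClosed 𝕜] [Algebra 𝕜 ℂ] [Algebra ℚ 𝕜]
  {Γ : Subgroup SL(2, ℤ)} {h : ℕ} [NeZero h] {F₀ : IntermediateField ℚ (LaurentSeries ℚ)}
  (M : TgdModel 𝕜 Γ h F₀)

namespace TgdModel

theorem ql_toF (y : ↥(laurentBaseChange 𝕜 F₀)) :
    tgxFieldQL M.G (M.toF y) = qExpand ℂ h (coeffMap (algebraMap 𝕜 ℂ) (y : LaurentSeries 𝕜)) :=
  M.iso_ql y

/-- the order of the `q_h`-expansion of an element of the function field is `h` times the order of
its `q`-expansion -/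
theorem order_ql_toF (y : ↥(laurentBaseChange 𝕜 F₀)) :
    (tgxFieldQL M.G (M.toF y)).order = h * (y : LaurentSeries 𝕜).order := by
  by_cases hy : y = 0
  · rw [hy, ql_toF]
    simp
  have hy' : coeffMap (algebraMap 𝕜 ℂ) (y : LaurentSeries 𝕜) ≠ 0 := by
    rw [Ne, tdx_coeffMap_eq_zero_iff]
    exact fun h0 => hy (Subtype.ext h0)
  rw [ql_toF, order_qExpand h hy', tdx_order_coeffMap]

include M in
/-- **the `q`-orders of the elements of the Kummer group are divisible by `m`** -/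
theorem order_dvd_of_mem_tgWsub {m : ℕ} (z : (↥(laurentBaseChange 𝕜 F₀))ˣ)
    (hz : z ∈ tgWsub 𝕜 F₀ m) :
    ∃ n : ℤ, ((z : ↥(laurentBaseChange 𝕜 F₀)) : LaurentSeries 𝕜).order = m * n := by
  obtain ⟨n, hn, hcond⟩ := M.pred_cusp z.ne_zero (mem_tgWsub.mp hz) 1
  have h1 : (1 : SL(2, ℤ))⁻¹ * T ^ (1 : ℤ) * 1 ∈ Γ := by
    rw [inv_one, one_mul, mul_one, zpow_one]
    exact M.grp.T_mem
  obtain ⟨n', hn'⟩ := hcond 1 h1
  rw [one_mul] at hn'
  rw [map_one, AlgEquiv.one_apply, order_ql_toF, hn'] at hn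
  have hh : (h : ℤ) ≠ 0 := by exact_mod_cast NeZero.ne h
  refine ⟨n', mul_left_cancel₀ hh ?_⟩
  rw [hn]
  ring

/-- `j` as an element of the function field -/
noncomputable def jBar (hj : jq ∈ F₀) : ↥(laurentBaseChange 𝕜 F₀) :=
  ⟨coeffEmb 𝕜 jq, coeffEmb_mem_laurentBaseChange 𝕜 hj⟩

include M in
theorem coe_jBar (hj : jq ∈ F₀) :
    ((jBar (𝕜 := 𝕜) hj : ↥(laurentBaseChange 𝕜 F₀)) : LaurentSeries 𝕜) = jqModC 𝕜 :=
  map_jqModC (algebraMap ℚ 𝕜)

theorem iso_jBar (hj : jq ∈ F₀) : M.iso (jBar hj) = M.jG := by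
  apply Subtype.ext
  apply tgxFieldQL_injective M.G
  rw [M.iso_ql, M.coe_jBar hj, coeffMap_jqModC, coe_jG, tgxJL, tgxFieldQL_algebraMap, tgxRingQL_jR]

theorem toF_jBar (hj : jq ∈ F₀) : M.toF (jBar hj) = tgxJL M.G := by
  unfold toF
  rw [iso_jBar]
  rfl

include M in
/-- **`j` generates the function field** -/
theorem isFunctionFieldGen_jBar (hj : jq ∈ F₀) :
    IsFunctionFieldGen 𝕜 ↥(laurentBaseChange 𝕜 F₀) (jBar hj) := by
  have hG := M.isFunctionFieldGen_jG
  refine ⟨?_, ?_⟩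
  · intro halg
    apply hG.transcendental
    have := halg.algHom M.iso.toAlgHom
    rw [← M.iso_jBar hj]
    exact this
  · apply FiniteDimensional.of_finrank_pos
    rw [finrank_adjoin_congr M.iso (jBar hj), M.iso_jBar hj]
    haveI := hG.finite
    exact Module.finrank_pos

end TgdModel

end General

/-! ### Descent -/

section Descent

variable {Γ : Subgroup SL(2, ℤ)} {h : ℕ} [NeZero h] {F₀ : IntermediateField ℚ (LaurentSeries ℚ)}

theorem tgd_coeffMap_algebraMap_self (x : LaurentSeries ℂ) : coeffMap (algebraMap ℂ ℂ) x = x := by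
  have : (algebraMap ℂ ℂ) = RingHom.id ℂ := rfl
  rw [this, coeffMap_id]

/-- base change is compatible with the functions on `ℍ` attached to two compatible models -/
theorem TgdModel.fn_bc (MK : TgdModel Kbar Γ h F₀) (MC : TgdModel ℂ Γ h F₀)
    (hG : MC.G = MK.G.toC) (y : ↥(laurentBaseChange Kbar F₀)) :
    MC.fn (tgdBc F₀ y) = MK.fn y := by
  obtain ⟨GC, grpC, kerC, isoC, qlC⟩ := MC
  dsimp only at hG
  subst hG
  have key : TgdModel.toF ⟨MK.G.toC, grpC, kerC, isoC, qlC⟩ (tgdBc F₀ y)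
      = tgxFieldIncl MK.G (MK.toF y) := by
    apply tgxFieldQL_injective MK.G.toC
    have e1 := TgdModel.ql_toF ⟨MK.G.toC, grpC, kerC, isoC, qlC⟩ (tgdBc F₀ y)
    rw [tgxFieldQL_fieldIncl, TgdModel.ql_toF MK]
    refine e1.trans ?_
    rw [coe_tgdBc, tgd_coeffMap_algebraMap_self]
  rw [TgdModel.fn_apply, TgdModel.fn_apply, key, tgxToMer_fieldIncl]

/-- **descent data** between the dictionaries of two compatible models over `ℚ̄` and `ℂ` -/
noncomputable def TgdModel.descent (MK : TgdModel Kbar Γ h F₀) (MC : TgdModel ℂ Γ h F₀)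
    (hG : MC.G = MK.G.toC) (hj : jq ∈ F₀) (DC : TgdDictC Γ h F₀)
    (hDC : DC.toTgdDict.fn = MC.fn) : TgdDescent MK.dict DC where
  bc := tgdBc F₀
  fn_bc := fun y => by
    rw [hDC, TgdModel.dict_fn]
    exact TgdModel.fn_bc MK MC hG y
  pow_desc := tgd_pow_desc F₀
  surj := fun m hm hfin z hz =>
    tgd_surj_core F₀ hj (MC.isFunctionFieldGen_jBar hj) hm
      (fun z hz => MC.order_dvd_of_mem_tgWsub z hz) hfin z hz

end Descent

end Fermat.Agent.T1G
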