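/-
T1G-AN (C) AN-DICT (helper3), summary: from two compatible analytic models `MK`, `MC` of the function
field of `Γ \ ℍ*` over `ℚ̄` and over `ℂ` (same generating system) one gets the three inputs of the
monodromy layer (TG-MONO):
  `MK.dict : TgdDict ℚ̄ Γ h F₀`,  `MC.dictC : TgdDictC Γ h F₀`,
  `TgdModel.descentC MK MC hG hj : TgdDescent MK.dict MC.dictC`.
-/
import Mathlib
import Fermat.Agent.Lib.T1G.Dict.AutoRoot
import Fermat.Agent.Lib.T1G.Dict.ModelDescent

set_option autoImplicit false
set_option linter.unusedSectionVars false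

namespace Fermat.Agent.T1G

open Matrix MatrixGroups ModularCurve
open Fermat.Agent.S24Lib Fermat.Agent.T1

local notation "Kbar" => AlgebraicClosure ℚ

variable {Γ : Subgroup SL(2, ℤ)} [Γ.FiniteIndex] {h : ℕ} [NeZero h]
  {F₀ : IntermediateField ℚ (LaurentSeries ℚ)}

/-- **descent data** between the dictionaries of two compatible models over `ℚ̄` and `ℂ` -/
noncomputable def TgdModel.descentC (MK : TgdModel Kbar Γ h F₀) (MC : TgdModel ℂ Γ h F₀)
    (hG : MC.G = MK.G.toC) (hj : jq ∈ F₀) : TgdDescent MK.dict MC.dictC :=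
  TgdModel.descent MK MC hG hj MC.dictC rfl

end Fermat.Agent.T1G
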